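import Fermat.Agent.RH.Equality

/-!
# Riemann–Hurwitz formula, tame case: final statements
-/

set_option autoImplicit false

noncomputable section

open AlgebraicCurve IsDedekindDomain WithZero Module

namespace Fermat.Agent.RH

open Fermat.Agent.FunField PlaceLemmas IntermediateField Fermat.Agent.PushPull

variable {K M : Type*} [Field K] [Field M] [Algebra K M] {h : M} [IsFF K M]

theorem sup_le_ker_phi (h : M) (m : ℤ) :
    finReg (K := K) h ⊔ infReg h m ≤ LinearMap.ker (phi (K := K) h m) := by
  have hzero : ∀ (x f : M), (∀ Q : Place K M, 0 ≤ Q.ord h → f ∈ geSub Q 0) →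
      (∀ Q : Place K M, Q.ord h < 0 → x - f ∈ geSub Q (m * -Q.ord h)) →
      x ∈ LinearMap.ker (phi (K := K) h m) := by
    intro x f h1 h2
    show (Submodule.Quotient.mk (infAdele h x) : H1 (-(m • poleDiv h) : Divisor K M)) = 0
    rw [mk_eq_zero_iff]
    refine ⟨f, ?_⟩
    rw [mem_repOf]
    intro Q
    rcases lt_or_ge (Q.ord h) 0 with hQ | hQ
    · have h3 : ((infAdele h x - constAdele f : repartitions K M) : Place K M → M) Q = x - f := by
        conv_rhs => rw [← infAdele_pos hQ x]
        rfl
      have h4 : -((-(m • poleDiv h) : Divisor K M) Q) = m * -Q.ord h := by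
        rw [Finsupp.neg_apply, Finsupp.smul_apply, poleDiv_apply, max_eq_left (by omega)]; simp
      rw [h3, h4]
      exact h2 Q hQ
    · have h3 : ((infAdele h x - constAdele f : repartitions K M) : Place K M → M) Q = 0 - f := by
        rw [← infAdele_neg hQ x]; rfl
      have h4 : -((-(m • poleDiv h) : Divisor K M) Q) = 0 := by
        rw [Finsupp.neg_apply, Finsupp.smul_apply, poleDiv_apply, max_eq_right (by omega)]; simp
      rw [h3, h4, zero_sub]
      exact Submodule.neg_mem _ (h1 Q hQ)
  rw [sup_le_iff]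
  constructor
  · intro x hx
    refine hzero x x (mem_finReg.mp hx) fun Q _ => ?_
    rw [sub_self]; exact Submodule.zero_mem _
  · intro x hx
    refine hzero x 0 (fun Q _ => Submodule.zero_mem _) fun Q hQ => ?_
    rw [sub_zero]; exact mem_infReg.mp hx Q hQ

theorem phi_surjective (htr : Transcendental K h) (m : ℤ) :
    Function.Surjective (phi (K := K) h m) := by
  classical
  have hh0 : h ≠ 0 := by rintro rfl; exact htr isAlgebraic_zero
  obtain ⟨N₀, hN₀⟩ := exists_h1_vanishing (K := K) (F := M)
  have hfin := finiteDimensional_adjoin_of_isFF (K := K) htr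
  have hn : (1 : ℤ) ≤ finrank K⟮h⟯ M := by exact_mod_cast finrank_pos
  intro α'
  obtain ⟨α, rfl⟩ := Submodule.Quotient.mk_surjective _ α'
  have hsub : Subsingleton (H1 ((|N₀| : ℤ) • poleDiv h : Divisor K M)) := by
    apply hN₀
    rw [map_zsmul, degree_poleDiv htr, smul_eq_mul]
    have h1 := le_abs_self N₀
    have h2 := abs_nonneg N₀
    nlinarith
  have hα : (Submodule.Quotient.mk α : H1 ((|N₀| : ℤ) • poleDiv h : Divisor K M)) = 0 :=
    Subsingleton.elim _ _
  rw [mk_eq_zero_iff] at hα
  obtain ⟨f, hf⟩ := hα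
  rw [mem_repOf] at hf
  have hfinS := finite_zeros (K := K) h⁻¹ (inv_ne_zero hh0)
  obtain ⟨x, hx⟩ := weak_approximation' (fun Q : hfinS.toFinset => (Q : Place K M))
    Subtype.val_injective
    (fun Q => (α : Place K M → M) Q - f)
    (fun Q => m * -(Q : Place K M).ord h)
  refine ⟨x, ?_⟩
  show (Submodule.Quotient.mk (infAdele h x) : H1 (-(m • poleDiv h) : Divisor K M)) =
    Submodule.Quotient.mk α
  rw [eq_comm, ← sub_eq_zero, ← Submodule.Quotient.mk_sub, mk_eq_zero_iff]
  refine ⟨f, ?_⟩
  rw [mem_repOf]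
  intro Q
  rcases lt_or_ge (Q.ord h) 0 with hQ | hQ
  · have h3 : ((α - infAdele h x - constAdele f : repartitions K M) : Place K M → M) Q =
        -(x - ((α : Place K M → M) Q - f)) := by
      have : ((α - infAdele h x - constAdele f : repartitions K M) : Place K M → M) Q =
        (α : Place K M → M) Q - ((infAdele h x : repartitions K M) : Place K M → M) Q - f := rfl
      rw [this, infAdele_pos hQ x]; ring
    have h4 : -((-(m • poleDiv h) : Divisor K M) Q) = m * -Q.ord h := by
      rw [Finsupp.neg_apply, Finsupp.smul_apply, poleDiv_apply, max_eq_left (by omega)]; simp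
    rw [h3, h4]
    have hQS : Q ∈ hfinS.toFinset := by
      rw [Set.Finite.mem_toFinset]
      show 0 < Q.ord h⁻¹
      rw [Q.ord_inv]; omega
    refine Submodule.neg_mem _ ?_
    rcases hx ⟨Q, hQS⟩ with h5 | h5
    · have h5' : x = (α : Place K M → M) Q - f := h5
      rw [← h5', sub_self]; exact Submodule.zero_mem _
    · rcases eq_or_ne (x - ((α : Place K M → M) Q - f)) 0 with h6 | h6
      · rw [h6]; exact Submodule.zero_mem _
      · rw [mem_geSub_of_ne h6]; exact h5
  · have h3 : ((α - infAdele h x - constAdele f : repartitions K M) : Place K M → M) Q =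
        (α : Place K M → M) Q - f := by
      have : ((α - infAdele h x - constAdele f : repartitions K M) : Place K M → M) Q =
        (α : Place K M → M) Q - ((infAdele h x : repartitions K M) : Place K M → M) Q - f := rfl
      rw [this, infAdele_neg hQ x, sub_zero]
    have h4 : -((-(m • poleDiv h) : Divisor K M) Q) = 0 := by
      rw [Finsupp.neg_apply, Finsupp.smul_apply, poleDiv_apply, max_eq_right (by omega)]; simp
    have h5 : -((|N₀| • poleDiv h : Divisor K M) Q) = 0 := by
      rw [Finsupp.smul_apply, poleDiv_apply, max_eq_right (by omega)]; simp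
    rw [h3, h4]
    have := hf Q
    rw [h5] at this
    exact this

theorem finrank_dualAnnihilator_ker_phi (htr : Transcendental K h) (m : ℤ) :
    finrank K (LinearMap.ker (phi (K := K) h m)).dualAnnihilator =
      finrank K (H1 (-(m • poleDiv h) : Divisor K M)) := by
  let e := (LinearMap.ker (phi (K := K) h m)).dualQuotEquivDualAnnihilator
  let e' := (phi (K := K) h m).quotKerEquivOfSurjective (phi_surjective htr m)
  have : Module.Finite K (M ⧸ LinearMap.ker (phi (K := K) h m)) :=
    Module.Finite.equiv e'.symm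
  rw [← e.finrank_eq, Subspace.dual_finrank_eq, e'.finrank_eq]

omit [IsFF K M] in
open Classical in
theorem sum_single_apply (T : Finset (Place K M))
    (hT : ∀ Q, Q ∉ T → ram h Q = 1) (Q : Place K M) :
    (∑ P ∈ T, Finsupp.single P (ram h P - 1) : Divisor K M) Q = ram h Q - 1 := by
  rw [Finsupp.finsetSum_apply]
  have h1 : ∀ P ∈ T, (Finsupp.single P (ram h P - 1) : Divisor K M) Q =
      if P = Q then ram h Q - 1 else 0 := by
    intro P _
    rw [Finsupp.single_apply]
    split_ifs with hPQ
    · rw [hPQ]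
    · rfl
  rw [Finset.sum_congr rfl h1, Finset.sum_ite_eq']
  split_ifs with hQ
  · rfl
  · rw [hT Q hQ, sub_self]

variable [IsAlgClosed K]

/-- **Riemann–Hurwitz formula** in the tame case (any characteristic). -/
theorem riemann_hurwitz_eq (htr : Transcendental K h) [Algebra.IsSeparable K⟮h⟯ M]
    (T : Finset (Place K M)) (hT : ∀ Q, Q ∉ T → ram h Q = 1)
    (htame : ∀ Q ∈ T, ((ram h Q : ℤ) : K) ≠ 0) :
    ∑ Q ∈ T, (ram h Q - 1) = 2 * (genusFF K M : ℤ) - 2 + 2 * finrank K⟮h⟯ M := by
  classical
  apply le_antisymm (riemann_hurwitz_le h htr T)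
  have hfin := finiteDimensional_adjoin_of_isFF (K := K) htr
  have hn : (1 : ℤ) ≤ finrank K⟮h⟯ M := by exact_mod_cast finrank_pos
  obtain ⟨lam, hlam, hlam0⟩ := exists_residue (K := K) htr
  have htame' : ∀ Q : Place K M, ((ram h Q : ℤ) : K) ≠ 0 := by
    intro Q
    by_cases hQ : Q ∈ T
    · exact htame Q hQ
    · rw [hT Q hQ, Int.cast_one]; exact one_ne_zero
  set R : Divisor K M := ∑ Q ∈ T, Finsupp.single Q (ram h Q - 1) with hR
  have hRapply : ∀ Q, R Q = ram h Q - 1 := sum_single_apply T hT
  have hdegR : Divisor.degree R = ∑ Q ∈ T, (ram h Q - 1) := by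
    rw [hR, map_sum]
    refine Finset.sum_congr rfl fun Q _ => ?_
    rw [Divisor.degree_single, Q.deg_eq_one_of_isAlgClosed_of_finite, Nat.cast_one, mul_one]
  rw [← hdegR]
  obtain ⟨N₀, hN₀⟩ := exists_h1_vanishing (K := K) (F := M)
  obtain ⟨m, hm1, hm2⟩ : ∃ m : ℤ, 0 < m ∧
      N₀ ≤ Divisor.degree (R + (m - 2) • poleDiv h : Divisor K M) := by
    refine ⟨|N₀| + |Divisor.degree R| + 2, by positivity, ?_⟩
    rw [map_add, map_zsmul, degree_poleDiv htr, smul_eq_mul]
    have h1 := le_abs_self N₀
    have h2 := neg_abs_le (Divisor.degree R)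
    have h3 := abs_nonneg N₀
    have h4 := abs_nonneg (Divisor.degree R)
    nlinarith
  have hsub := hN₀ _ hm2
  let Psi : riemannRochSpace (R + (m - 2) • poleDiv h : Divisor K M) →ₗ[K]
      (LinearMap.ker (phi (K := K) h m)).dualAnnihilator :=
    { toFun := fun f => ⟨lam ∘ₗ tr h ∘ₗ LinearMap.mulLeft K (f : M), by
        rw [Submodule.mem_dualAnnihilator]
        intro x hx
        exact hlam0 _ (tr_mul_mem h htr m (fun Q => (hRapply Q).le) f.2 (ker_phi_le h m hx))⟩
      map_add' := fun f g => by
        apply Subtype.ext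
        apply LinearMap.ext
        intro x
        show lam (tr h ((f + g : M) * x)) = lam (tr h (f * x)) + lam (tr h (g * x))
        rw [add_mul, map_add, map_add]
      map_smul' := fun c f => by
        apply Subtype.ext
        apply LinearMap.ext
        intro x
        show lam (tr h ((c • (f : M)) * x)) = c • lam (tr h (f * x))
        rw [smul_mul_assoc, map_smul, map_smul] }
  have hsurj : Function.Surjective Psi := by
    rintro ⟨mu, hmu⟩
    rw [Submodule.mem_dualAnnihilator] at hmu
    have hmu' : ∀ z ∈ finReg (K := K) h ⊔ infReg h m, mu z = 0 := fun z hz =>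
      hmu z (sup_le_ker_phi h m hz)
    obtain ⟨f, hf⟩ := exists_eq_residue htr hlam hlam0 m hmu'
    have hffin : ∀ x ∈ finReg (K := K) h, tr (K := K) h (f * x) ∈ finReg (K := K) h := by
      intro x hx
      refine mem_finReg_of_residue htr hlam hlam0 (tr_mem h _) fun p => ?_
      have hpE : Polynomial.aeval h p ∈ K⟮h⟯ := by
        rw [Polynomial.aeval_eq_sum_range]
        exact sum_mem fun i _ => IntermediateField.smul_mem _
          (pow_mem (mem_adjoin_simple_self K h) i)
      rw [← tr_smul h hpE, mul_left_comm, ← hf]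
      exact hmu' _ (Submodule.mem_sup_left (mul_mem_finReg (aeval_mem_finReg htr p) hx))
    have hfinf : ∀ x ∈ infReg (K := K) h m, tr (K := K) h (f * x) ∈ infReg (K := K) h 2 := by
      intro x hx
      refine mem_infReg_of_residue htr hlam hlam0 (tr_mem h _) fun k => ?_
      rw [← tr_smul h (pow_mem (inv_mem (mem_adjoin_simple_self K h)) k), mul_left_comm, ← hf]
      refine hmu' _ (Submodule.mem_sup_right ?_)
      clear hsub
      induction k with
      | zero => rwa [pow_zero, one_mul]
      | succ k ih =>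
        rw [pow_succ', mul_assoc]
        exact mul_mem_infReg (inv_mem_infReg htr) ih (by omega)
    refine ⟨⟨f, ?_⟩, Subtype.ext (LinearMap.ext fun x => (hf x).symm)⟩
    rw [mem_rr]
    intro Q
    rw [Finsupp.add_apply, hRapply, Finsupp.smul_apply, poleDiv_apply]
    rcases lt_or_ge (Q.ord h) 0 with hQ | hQ
    · rw [max_eq_left (by omega), smul_eq_mul, neg_add]
      have := ord_ge_of_trace_inf htr hfinf Q hQ (htame' Q)
      rwa [sub_eq_add_neg] at this
    · rw [max_eq_right (by omega), smul_zero, add_zero]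
      exact ord_ge_of_trace_fin htr hffin Q hQ (htame' Q)
  have h1 := Psi.finrank_le_finrank_of_surjective hsurj
  rw [finrank_dualAnnihilator_ker_phi htr] at h1
  have h2 := riemann_roch (K := K) (-(m • poleDiv h) : Divisor K M)
  have h3 := riemann_roch (K := K) (R + (m - 2) • poleDiv h : Divisor K M)
  rw [rr_neg_poleDiv htr hm1, map_neg, map_zsmul, degree_poleDiv htr] at h2
  have hH1 : finrank K (H1 (R + (m - 2) • poleDiv h : Divisor K M)) = 0 :=
    finrank_zero_of_subsingleton
  rw [map_add, map_zsmul, degree_poleDiv htr, hH1] at h3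
  have h5 : (finrank K (H1 (-(m • poleDiv h) : Divisor K M)) : ℤ) ≤
      finrank K (riemannRochSpace (R + (m - 2) • poleDiv h : Divisor K M)) := by
    exact_mod_cast h1
  simp only [smul_eq_mul, Nat.cast_zero, zero_sub, sub_zero] at h2 h3
  linarith

/-- **Riemann–Hurwitz formula**, formulated with the supports of `zeroDiv (h - a)`. -/
theorem riemann_hurwitz_eq' (htr : Transcendental K h) [Algebra.IsSeparable K⟮h⟯ M]
    (S : Finset K)
    (hS : ∀ (a : K) (v : Place K M), a ∉ S → 0 < v.ord (h - algebraMap K M a) →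
      v.ord (h - algebraMap K M a) = 1)
    (htame : ∀ (a : K) (v : Place K M), 0 < v.ord (h - algebraMap K M a) →
      ((v.ord (h - algebraMap K M a) : ℤ) : K) ≠ 0)
    (htame' : ∀ v : Place K M, v.ord h < 0 → ((v.ord h : ℤ) : K) ≠ 0) :
    2 * (genusFF K M : ℤ) - 2 = -2 * finrank K⟮h⟯ M +
      ∑ a ∈ S, ∑ v ∈ (zeroDiv (h - algebraMap K M a) : Divisor K M).support,
        (v.ord (h - algebraMap K M a) - 1) +
      ∑ v ∈ (zeroDiv h⁻¹ : Divisor K M).support, (v.ord h⁻¹ - 1) := by
  classical
  have hsupp : ∀ (f : M) (v : Place K M), v ∈ (zeroDiv f : Divisor K M).support ↔ 0 < v.ord f := by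
    intro f v
    rw [Finsupp.mem_support_iff, zeroDiv_apply]
    omega
  set T₁ : Finset (Place K M) := S.biUnion
    fun a => (zeroDiv (h - algebraMap K M a) : Divisor K M).support with hT₁
  set T₂ : Finset (Place K M) := (zeroDiv h⁻¹ : Divisor K M).support with hT₂
  have hdisj : Disjoint T₁ T₂ := by
    rw [Finset.disjoint_left]
    intro v hv1 hv2
    rw [hT₁, Finset.mem_biUnion] at hv1
    obtain ⟨a, -, ha⟩ := hv1
    rw [hsupp] at ha
    rw [hT₂, hsupp, v.ord_inv] at hv2
    rw [ord_sub_of_neg (by omega)] at ha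
    omega
  have key := riemann_hurwitz_eq htr (T₁ ∪ T₂) (by
      intro Q hQ
      rw [Finset.notMem_union] at hQ
      rcases lt_or_ge (Q.ord h) 0 with hQh | hQh
      · exact absurd ((hsupp _ _).mpr (by rw [Q.ord_inv]; omega)) hQ.2
      · obtain ⟨a, ha⟩ := exists_value hQh htr
        rw [ram_of_pos ha]
        by_cases haS : a ∈ S
        · exact absurd (Finset.mem_biUnion.mpr ⟨a, haS, (hsupp _ _).mpr ha⟩) hQ.1
        · exact hS a Q haS ha) (by
      intro Q _
      rcases lt_or_ge (Q.ord h) 0 with hQh | hQh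
      · rw [ram_of_neg hQh, Int.cast_neg]
        exact neg_ne_zero.mpr (htame' Q hQh)
      · obtain ⟨a, ha⟩ := exists_value hQh htr
        rw [ram_of_pos ha]
        exact htame a Q ha)
  rw [Finset.sum_union hdisj] at key
  have h1 : ∑ Q ∈ T₁, (ram h Q - 1) =
      ∑ a ∈ S, ∑ v ∈ (zeroDiv (h - algebraMap K M a) : Divisor K M).support,
        (v.ord (h - algebraMap K M a) - 1) := by
    rw [hT₁, Finset.sum_biUnion]
    · refine Finset.sum_congr rfl fun a _ => Finset.sum_congr rfl fun v hv => ?_
      rw [hsupp] at hv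
      rw [ram_of_pos hv]
    · intro a _ b _ hab
      rw [Function.onFun, Finset.disjoint_left]
      intro v hv1 hv2
      rw [hsupp] at hv1 hv2
      exact hab (eq_of_ord_sub_pos hv1 hv2)
  have h2 : ∑ Q ∈ T₂, (ram h Q - 1) =
      ∑ v ∈ (zeroDiv h⁻¹ : Divisor K M).support, (v.ord h⁻¹ - 1) := by
    refine Finset.sum_congr rfl fun v hv => ?_
    rw [hsupp, v.ord_inv] at hv
    rw [ram_of_neg (by omega), v.ord_inv]
  rw [h1, h2] at key
  linarith

omit [IsAlgClosed K] in
theorem isSeparable_adjoin_of_charZero [CharZero K] (htr : Transcendental K h) :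
    Algebra.IsSeparable K⟮h⟯ M := by
  have := finiteDimensional_adjoin_of_isFF (K := K) htr
  have : CharZero K⟮h⟯ := charZero_of_injective_algebraMap (algebraMap K K⟮h⟯).injective
  infer_instance

/-- **Riemann–Hurwitz formula** in characteristic zero. -/
theorem riemann_hurwitz_charZero [CharZero K] (htr : Transcendental K h) (S : Finset K)
    (hS : ∀ (a : K) (v : Place K M), a ∉ S → 0 < v.ord (h - algebraMap K M a) →
      v.ord (h - algebraMap K M a) = 1) :
    2 * (genusFF K M : ℤ) - 2 = -2 * finrank K⟮h⟯ M +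
      ∑ a ∈ S, ∑ v ∈ (zeroDiv (h - algebraMap K M a) : Divisor K M).support,
        (v.ord (h - algebraMap K M a) - 1) +
      ∑ v ∈ (zeroDiv h⁻¹ : Divisor K M).support, (v.ord h⁻¹ - 1) := by
  have := isSeparable_adjoin_of_charZero htr
  exact riemann_hurwitz_eq' htr S hS
    (fun a v hv => by exact_mod_cast hv.ne') (fun v hv => by exact_mod_cast hv.ne)

end Fermat.Agent.RH
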