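import Fermat.Agent.RH.Trace
import Fermat.Agent.FunField.RR
import Fermat.Prelude.Def_AlgebraicCurve_IsCurveOver

/-!
# Riemann–Hurwitz inequality (any characteristic, no differentials)

`riemann_hurwitz_le`: for `K` algebraically closed, `M/K` a function field in one variable,
`h ∈ M` with `M/K(h)` finite separable of degree `n`, and any finite set `T` of places,
`∑_{Q ∈ T} (e_Q - 1) ≤ 2 g - 2 + 2 n`.
-/

set_option autoImplicit false

noncomputable section

open AlgebraicCurve IsDedekindDomain WithZero Module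

namespace Fermat.Agent.RH

open Fermat.Agent.FunField PlaceLemmas IntermediateField

variable {K M : Type*} [Field K] [Field M] [Algebra K M]

/-- The ramification index of the place `Q` over `K(h)`. -/
def ram (h : M) (Q : Place K M) : ℤ :=
  open Classical in
  if Q.ord h < 0 then -Q.ord h
  else if hex : ∃ a : K, 0 < Q.ord (h - algebraMap K M a) then
    Q.ord (h - algebraMap K M hex.choose) else 1

theorem ram_of_neg {h : M} {Q : Place K M} (hQ : Q.ord h < 0) : ram h Q = -Q.ord h := by
  rw [ram, if_pos hQ]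

theorem eq_of_ord_sub_pos {h : M} {Q : Place K M} {a b : K}
    (ha : 0 < Q.ord (h - algebraMap K M a)) (hb : 0 < Q.ord (h - algebraMap K M b)) : a = b := by
  by_contra hne
  have h0 : h - algebraMap K M a ≠ 0 := by intro h0; rw [h0] at ha; simp at ha
  have h1 : -(h - algebraMap K M b) ≠ 0 := by
    intro h0; rw [neg_eq_zero] at h0; rw [h0] at hb; simp at hb
  have hsum : (h - algebraMap K M a) + -(h - algebraMap K M b) = algebraMap K M (b - a) := by
    rw [map_sub]; ring
  have h2 := min_ord_le_ord_add Q h0 h1 (by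
    rw [hsum, Ne, map_eq_zero, sub_eq_zero]; exact fun h => hne h.symm)
  rw [hsum, ord_algebraMap, ord_neg] at h2
  omega

theorem ord_sub_of_neg {h : M} {Q : Place K M} (hQ : Q.ord h < 0) (a : K) :
    Q.ord (h - algebraMap K M a) = Q.ord h := by
  have h0 : h ≠ 0 := by rintro rfl; simp at hQ
  rw [sub_eq_add_neg]
  apply ord_add_eq_of_lt Q h0
  right
  rw [ord_neg, ord_algebraMap]; exact hQ

theorem ram_of_pos {h : M} {Q : Place K M} {a : K} (ha : 0 < Q.ord (h - algebraMap K M a)) :
    ram h Q = Q.ord (h - algebraMap K M a) := by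
  have h1 : ¬ Q.ord h < 0 := by
    intro hneg
    rw [ord_sub_of_neg hneg] at ha; omega
  have hex : ∃ a : K, 0 < Q.ord (h - algebraMap K M a) := ⟨a, ha⟩
  rw [ram, if_neg h1, dif_pos hex, eq_of_ord_sub_pos hex.choose_spec ha]

/-- Over an algebraically closed field every place is over a point of the `h`-line. -/
theorem exists_value [IsFF K M] [IsAlgClosed K] {h : M} {Q : Place K M} (hQ : 0 ≤ Q.ord h)
    (htr : Transcendental K h) : ∃ a : K, 0 < Q.ord (h - algebraMap K M a) := by
  have h0 : h ≠ 0 := by rintro rfl; exact htr isAlgebraic_zero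
  have hmem : h ∈ Q.toValuationSubring := (mem_iff_ord_nonneg Q h0).mpr hQ
  have hfin : Module.Finite K Q.ResidueField := inferInstance
  obtain ⟨a, ha⟩ := (IsAlgClosed.algebraMap_bijective_of_isIntegral
    (k := K) (K := Q.ResidueField)).2 (IsLocalRing.residue _ (⟨h, hmem⟩ : Q.toValuationSubring))
  refine ⟨a, ?_⟩
  have h1 : IsLocalRing.residue Q.toValuationSubring
      ((⟨h, hmem⟩ : Q.toValuationSubring) - ⟨algebraMap K M a, Q.algebraMap_mem' a⟩) = 0 := by
    rw [map_sub, ← ha, sub_eq_zero]
    rfl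
  rw [IsLocalRing.residue_eq_zero_iff, mem_maximalIdeal_iff] at h1
  have h2 : h - algebraMap K M a ≠ 0 := by
    intro h0
    rw [sub_eq_zero] at h0
    exact htr (h0 ▸ isAlgebraic_algebraMap a)
  exact h1.resolve_left h2

theorem ram_pos [IsFF K M] [IsAlgClosed K] {h : M} (htr : Transcendental K h) (Q : Place K M) :
    0 < ram h Q := by
  rcases lt_or_ge (Q.ord h) 0 with hQ | hQ
  · rw [ram_of_neg hQ]; omega
  · obtain ⟨a, ha⟩ := exists_value hQ htr
    rw [ram_of_pos ha]; exact ha

theorem exists_ord_neg [IsFF K M] {h : M} (htr : Transcendental K h) :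
    ∃ Q : Place K M, Q.ord h < 0 := by
  obtain ⟨Q, hQ⟩ := exists_place_ord_pos (K := K) (t := h⁻¹)
    (fun ha => htr (by simpa using ha.inv))
  rw [Q.ord_inv] at hQ
  exact ⟨Q, by omega⟩

theorem transcendental_sub {h : M} (htr : Transcendental K h) (a : K) :
    Transcendental K (h - algebraMap K M a) := by
  intro h1
  apply htr
  have := h1.add (isAlgebraic_algebraMap (R := K) (A := M) a)
  rwa [sub_add_cancel] at this

theorem adjoin_sub_eq (h : M) (a : K) : K⟮h - algebraMap K M a⟯ = K⟮h⟯ := by
  apply le_antisymm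
  · rw [adjoin_simple_le_iff]
    exact sub_mem (mem_adjoin_simple_self K h) (IntermediateField.algebraMap_mem _ a)
  · rw [adjoin_simple_le_iff]
    have := add_mem (mem_adjoin_simple_self K (h - algebraMap K M a))
      (IntermediateField.algebraMap_mem K⟮h - algebraMap K M a⟯ a)
    rwa [sub_add_cancel] at this

/-- functions regular at all places where `h` is finite -/
def finReg (h : M) : Submodule K M := ⨅ Q : {Q : Place K M // 0 ≤ Q.ord h}, geSub Q.1 0

/-- functions of order `≥ k e_Q` at all places where `h` is infinite -/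
def infReg (h : M) (k : ℤ) : Submodule K M :=
  ⨅ Q : {Q : Place K M // Q.ord h < 0}, geSub Q.1 (k * -Q.1.ord h)

theorem mem_finReg {h x : M} : x ∈ finReg (K := K) h ↔ ∀ Q : Place K M, 0 ≤ Q.ord h → x ∈ geSub Q 0 := by
  simp [finReg, Submodule.mem_iInf]

theorem mem_infReg {h x : M} {k : ℤ} :
    x ∈ infReg (K := K) h k ↔ ∀ Q : Place K M, Q.ord h < 0 → x ∈ geSub Q (k * -Q.ord h) := by
  simp [infReg, Submodule.mem_iInf]

/-- the trace to `K(h)` as a `K`-linear endomorphism of `M`. -/
def tr (h : M) : M →ₗ[K] M :=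
  (IntermediateField.val K⟮h⟯).toLinearMap ∘ₗ
    (Algebra.trace K⟮h⟯ M).restrictScalars K

theorem tr_apply (h x : M) : tr (K := K) h x = ((Algebra.trace K⟮h⟯ M x : K⟮h⟯) : M) := rfl

theorem tr_mem (h x : M) : tr (K := K) h x ∈ K⟮h⟯ := (Algebra.trace K⟮h⟯ M x).2

theorem tr_smul (h : M) {c : M} (hc : c ∈ K⟮h⟯) (x : M) :
    tr (K := K) h (c * x) = c * tr (K := K) h x := by
  rw [tr_apply, tr_apply]
  have : c * x = (⟨c, hc⟩ : K⟮h⟯) • x := rfl
  rw [this, map_smul]
  rfl

section Local

variable [IsFF K M] (h : M) [FiniteDimensional K⟮h⟯ M] [Algebra.IsSeparable K⟮h⟯ M]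

/-- regularity of the trace at a place over a finite point. -/
theorem tr_mem_fin {a : K} {v : Place K M} (hv : 0 < v.ord (h - algebraMap K M a)) {F : M}
    (hF : ∀ w : Place K M, 0 < w.ord (h - algebraMap K M a) →
      F = 0 ∨ - w.ord (h - algebraMap K M a) < w.ord F) :
    tr (K := K) h F ∈ geSub v 0 := by
  set t := h - algebraMap K M a with ht
  have ht0 : t ≠ 0 := by intro h0; rw [h0] at hv; simp at hv
  have htE : t ∈ K⟮h⟯ := by rw [← adjoin_sub_eq h a]; exact mem_adjoin_simple_self K _
  rcases eq_or_ne (tr (K := K) h F) 0 with h0 | h0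
  · rw [h0]; exact Submodule.zero_mem _
  have key := trace_pos K⟮h⟯ t htE v hv (t * F) (by
    intro w hw
    rcases hF w hw with h1 | h1
    · left; rw [h1, mul_zero]
    · rcases eq_or_ne F 0 with h2 | h2
      · left; rw [h2, mul_zero]
      · right; rw [w.ord_mul ht0 h2]; omega)
  rw [← tr_apply, tr_smul h htE] at key
  have h1 := key.resolve_left (mul_ne_zero ht0 h0)
  rw [v.ord_mul ht0 h0] at h1
  obtain ⟨k, hk⟩ := ord_dvd t v hv (tr (K := K) h F) (by
    rw [ht, adjoin_sub_eq h a]; exact tr_mem h F)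
  rw [mem_geSub_of_ne h0, hk]
  rw [hk] at h1
  have h2 : 0 < v.ord t * (k + 1) := by linarith
  have h3 : 0 < k + 1 := by
    by_contra hcon
    push Not at hcon
    nlinarith
  nlinarith

/-- trace at infinity. -/
theorem tr_mem_inf {v : Place K M} (hv : v.ord h < 0) (k : ℤ) {F : M}
    (hF : ∀ w : Place K M, w.ord h < 0 → F = 0 ∨ (k - 1) * -w.ord h < w.ord F) :
    tr (K := K) h F ∈ geSub v (k * -v.ord h) := by
  have hh0 : h ≠ 0 := by rintro rfl; simp at hv
  set t := h⁻¹ with ht
  have ht0 : t ≠ 0 := inv_ne_zero hh0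
  have hvt : 0 < v.ord t := by rw [ht, v.ord_inv]; omega
  have htE : t ∈ K⟮h⟯ := inv_mem (mem_adjoin_simple_self K h)
  have htkE : t ^ (1 - k) ∈ K⟮h⟯ := zpow_mem htE _
  have htk0 : t ^ (1 - k) ≠ 0 := zpow_ne_zero _ ht0
  rcases eq_or_ne (tr (K := K) h F) 0 with h0 | h0
  · rw [h0]; exact Submodule.zero_mem _
  have key := trace_pos K⟮h⟯ t htE v hvt (t ^ (1 - k) * F) (by
    intro w hw
    have hw' : w.ord h < 0 := by rw [ht, w.ord_inv] at hw; omega
    rcases hF w hw' with h1 | h1
    · left; rw [h1, mul_zero]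
    · rcases eq_or_ne F 0 with h2 | h2
      · left; rw [h2, mul_zero]
      · right
        rw [w.ord_mul htk0 h2, w.ord_zpow, ht, w.ord_inv]
        nlinarith)
  rw [← tr_apply, tr_smul h htkE] at key
  have h1 := key.resolve_left (mul_ne_zero htk0 h0)
  rw [v.ord_mul htk0 h0, v.ord_zpow] at h1
  obtain ⟨m, hm⟩ := ord_dvd t v hvt (tr (K := K) h F) (by
    rw [ht, adjoin_inv_eq]; exact tr_mem h F)
  have e : -v.ord h = v.ord t := by rw [ht, v.ord_inv]
  rw [mem_geSub_of_ne h0, hm, e]
  rw [hm] at h1
  have h2 : 0 < v.ord t * (1 - k + m) := by linarith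
  have h3 : 0 < 1 - k + m := by
    by_contra hcon
    push Not at hcon
    nlinarith
  have h4 : k ≤ m := by omega
  nlinarith

end Local

section Global

variable [IsFF K M]

/-- The adele equal to `x` at the poles of `h` and `0` elsewhere. -/
def infAdele (h : M) : M →ₗ[K] repartitions K M where
  toFun x := ⟨fun Q => open Classical in if Q.ord h < 0 then x else 0, by
    rw [mem_repartitions_iff]
    rcases eq_or_ne h 0 with rfl | hh
    · convert Set.finite_empty
      ext Q
      simp only [Set.mem_ofPred_eq, Set.mem_empty_iff_false, iff_false, not_not]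
      rw [if_neg (by simp)]
      exact Submodule.zero_mem _
    · refine (finite_support (K := K) h hh).subset fun Q hQ => ?_
      by_contra hcon
      apply hQ
      have : ¬ Q.ord h < 0 := by
        intro h1; apply hcon
        show Q.ord h ≠ 0
        omega
      simp only [if_neg this]
      exact Submodule.zero_mem _⟩
  map_add' x y := Subtype.ext (by
    funext Q
    show (open Classical in if Q.ord h < 0 then x + y else 0) =
      (open Classical in if Q.ord h < 0 then x else 0) +
      (open Classical in if Q.ord h < 0 then y else 0)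
    split_ifs <;> simp)
  map_smul' c x := Subtype.ext (by
    funext Q
    show (open Classical in if Q.ord h < 0 then c • x else 0) =
      c • (open Classical in if Q.ord h < 0 then x else 0)
    split_ifs <;> simp)

theorem infAdele_pos {h : M} {Q : Place K M} (hQ : Q.ord h < 0) (x : M) :
    ((infAdele h x : repartitions K M) : Place K M → M) Q = x := by
  show (open Classical in if Q.ord h < 0 then x else 0) = x
  rw [if_pos hQ]

theorem infAdele_neg {h : M} {Q : Place K M} (hQ : 0 ≤ Q.ord h) (x : M) :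
    ((infAdele h x : repartitions K M) : Place K M → M) Q = 0 := by
  show (open Classical in if Q.ord h < 0 then x else 0) = 0
  rw [if_neg (by omega)]

/-- The map `M → H¹(-(h)_∞)`. -/
def phi (h : M) (m : ℤ) : M →ₗ[K] H1 (-(m • poleDiv h) : Divisor K M) :=
  Submodule.mkQ _ ∘ₗ infAdele h

theorem ker_phi_le (h : M) (m : ℤ) :
    LinearMap.ker (phi (K := K) h m) ≤ finReg h ⊔ infReg h m := by
  intro x hx
  have hx' : (Submodule.Quotient.mk (infAdele h x) : H1 (-(m • poleDiv h) : Divisor K M)) = 0 := hx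
  rw [mk_eq_zero_iff] at hx'
  obtain ⟨f, hf⟩ := hx'
  rw [mem_repOf] at hf
  have h1 : f ∈ finReg (K := K) h := by
    rw [mem_finReg]
    intro Q hQ
    have h2 := hf Q
    have h3 : ((infAdele h x - constAdele f : repartitions K M) : Place K M → M) Q = 0 - f := by
      rw [← infAdele_neg hQ x]; rfl
    rw [h3, zero_sub] at h2
    have h4 : -((-(m • poleDiv h) : Divisor K M) Q) = 0 := by
      rw [Finsupp.neg_apply, Finsupp.smul_apply, poleDiv_apply, max_eq_right (by omega)]; simp
    rw [h4] at h2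
    have := Submodule.neg_mem _ h2
    rwa [neg_neg] at this
  have h2 : x - f ∈ infReg (K := K) h m := by
    rw [mem_infReg]
    intro Q hQ
    have h2 := hf Q
    have h3 : ((infAdele h x - constAdele f : repartitions K M) : Place K M → M) Q = x - f := by
      conv_rhs => rw [← infAdele_pos hQ x]
      rfl
    have h4 : -((-(m • poleDiv h) : Divisor K M) Q) = m * -Q.ord h := by
      rw [Finsupp.neg_apply, Finsupp.smul_apply, poleDiv_apply, max_eq_left (by omega)]; simp
    rwa [h3, h4] at h2
  have : x = f + (x - f) := by ring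
  rw [this]
  exact Submodule.add_mem_sup h1 h2

theorem finrank_dualAnnihilator_ker_phi_le (h : M) (m : ℤ) :
    Module.Finite K (LinearMap.ker (phi (K := K) h m)).dualAnnihilator ∧
    finrank K (LinearMap.ker (phi (K := K) h m)).dualAnnihilator ≤
      finrank K (H1 (-(m • poleDiv h) : Divisor K M)) := by
  let e := (LinearMap.ker (phi (K := K) h m)).dualQuotEquivDualAnnihilator
  let e' := (phi (K := K) h m).quotKerEquivRange
  have : Module.Finite K (M ⧸ LinearMap.ker (phi (K := K) h m)) :=
    Module.Finite.equiv e'.symm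
  refine ⟨Module.Finite.equiv e, ?_⟩
  rw [← e.finrank_eq, Subspace.dual_finrank_eq, e'.finrank_eq]
  exact Submodule.finrank_le _

variable [IsAlgClosed K]

theorem rr_neg_poleDiv {h : M} (htr : Transcendental K h) {m : ℤ} (hm : 0 < m) :
    finrank K (riemannRochSpace (-(m • poleDiv h) : Divisor K M)) = 0 := by
  rw [show riemannRochSpace (-(m • poleDiv h) : Divisor K M) = ⊥ from ?_]
  · simp
  rw [eq_bot_iff]
  intro f hf
  rw [Submodule.mem_bot]
  by_contra hf0
  have h1 : ∀ Q : Place K M, 0 ≤ Q.ord f := by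
    intro Q
    have := mem_rr.mp hf Q
    rw [mem_geSub_of_ne hf0, Finsupp.neg_apply, Finsupp.smul_apply, poleDiv_apply, neg_neg,
      smul_eq_mul] at this
    have h2 : 0 ≤ m * max (-(Q.ord h)) 0 := mul_nonneg hm.le (le_max_right _ _)
    omega
  obtain ⟨c, rfl⟩ := exists_eq_algebraMap_of_forall_ord_nonneg h1
  obtain ⟨Q, hQ⟩ := exists_ord_neg htr
  have := mem_rr.mp hf Q
  rw [mem_geSub_of_ne hf0, Finsupp.neg_apply, Finsupp.smul_apply, poleDiv_apply, neg_neg,
    smul_eq_mul, ord_algebraMap, max_eq_left (by omega)] at this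
  nlinarith

/-- the "residue at infinity" functional -/
theorem exists_residue {h : M} (htr : Transcendental K h) :
    ∃ lam : M →ₗ[K] K, lam h⁻¹ ≠ 0 ∧ ∀ z ∈ finReg (K := K) h ⊔ infReg h 2, lam z = 0 := by
  have hnot : h⁻¹ ∉ finReg (K := K) h ⊔ infReg h 2 := by
    intro hmem
    obtain ⟨p, hp, z, hz, hpz⟩ := Submodule.mem_sup.mp hmem
    have hh0 : h ≠ 0 := by rintro rfl; exact htr isAlgebraic_zero
    rw [mem_finReg] at hp
    rw [mem_infReg] at hz
    have hpinf : ∀ Q : Place K M, Q.ord h < 0 → p ∈ geSub Q 1 := by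
      intro Q hQ
      have : p = h⁻¹ - z := by rw [← hpz]; ring
      rw [this]
      refine Submodule.sub_mem _ ?_ (geSub_anti Q (by nlinarith) (hz Q hQ))
      rw [mem_geSub_of_ne (inv_ne_zero hh0), Q.ord_inv]
      omega
    have hp0 : p = 0 := by
      by_contra hp0
      obtain ⟨c, rfl⟩ := exists_eq_algebraMap_of_forall_ord_nonneg (K := K) (f := p) (by
        intro Q
        rcases lt_or_ge (Q.ord h) 0 with hQ | hQ
        · have := hpinf Q hQ
          rw [mem_geSub_of_ne hp0] at this; omega
        · have := hp Q hQ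
          rwa [mem_geSub_of_ne hp0] at this)
      obtain ⟨Q, hQ⟩ := exists_ord_neg htr
      have := hpinf Q hQ
      rw [mem_geSub_of_ne hp0, ord_algebraMap] at this
      omega
    rw [hp0, zero_add] at hpz
    obtain ⟨Q, hQ⟩ := exists_ord_neg htr
    have := hz Q hQ
    rw [hpz, mem_geSub_of_ne (inv_ne_zero hh0), Q.ord_inv] at this
    nlinarith
  obtain ⟨f, hf, hf'⟩ := Submodule.exists_le_ker_of_notMem hnot
  exact ⟨f, hf, fun z hz => hf' hz⟩

/-- The trace pairing is orthogonal. -/
theorem tr_mul_mem (h : M) (htr : Transcendental K h) [FiniteDimensional K⟮h⟯ M]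
    [Algebra.IsSeparable K⟮h⟯ M] (m : ℤ) {D : Divisor K M}
    (hD : ∀ Q : Place K M, D Q ≤ ram h Q - 1) {f : M}
    (hf : f ∈ riemannRochSpace (D + (m - 2) • poleDiv h : Divisor K M)) {x : M}
    (hx : x ∈ finReg (K := K) h ⊔ infReg h m) :
    tr (K := K) h (f * x) ∈ finReg (K := K) h ⊔ infReg h 2 := by
  obtain ⟨y, hy, z, hz, rfl⟩ := Submodule.mem_sup.mp hx
  rw [mul_add, map_add]
  refine Submodule.add_mem_sup ?_ ?_
  · rw [mem_finReg] at hy ⊢
    intro Q hQ
    obtain ⟨a, ha⟩ := exists_value hQ htr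
    refine tr_mem_fin h ha fun w hw => ?_
    have hw' : 0 ≤ w.ord h := by
      by_contra hcon
      rw [ord_sub_of_neg (not_le.mp hcon)] at hw; omega
    have h1 := mem_rr.mp hf w
    have h2 := mul_mem_geSub h1 (hy w hw')
    rw [Finsupp.add_apply, Finsupp.smul_apply, poleDiv_apply, max_eq_right (by omega),
      smul_zero, add_zero, add_zero] at h2
    rcases eq_or_ne (f * y) 0 with h3 | h3
    · exact Or.inl h3
    · right
      rw [mem_geSub_of_ne h3] at h2
      have h4 := hD w
      rw [ram_of_pos hw] at h4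
      omega
  · rw [mem_infReg] at hz ⊢
    intro Q hQ
    refine tr_mem_inf h hQ 2 fun w hw => ?_
    have h1 := mem_rr.mp hf w
    have h2 := mul_mem_geSub h1 (hz w hw)
    rw [Finsupp.add_apply, Finsupp.smul_apply, poleDiv_apply, max_eq_left (by omega),
      smul_eq_mul] at h2
    rcases eq_or_ne (f * z) 0 with h3 | h3
    · exact Or.inl h3
    · right
      rw [mem_geSub_of_ne h3] at h2
      have h4 := hD w
      rw [ram_of_neg hw] at h4
      nlinarith

/-- **Riemann–Hurwitz inequality**, divisor form. -/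
theorem degree_le_of_le_ram (h : M) (htr : Transcendental K h)
    [Algebra.IsSeparable K⟮h⟯ M] {D : Divisor K M}
    (hD : ∀ Q : Place K M, D Q ≤ ram h Q - 1) :
    Divisor.degree D ≤ 2 * (genusFF K M : ℤ) - 2 + 2 * finrank K⟮h⟯ M := by
  have := finiteDimensional_adjoin_of_isFF (K := K) htr
  obtain ⟨lam, hlam, hlam0⟩ := exists_residue (K := K) htr
  have hh0 : h ≠ 0 := by rintro rfl; exact htr isAlgebraic_zero
  obtain ⟨hfin, hle⟩ := finrank_dualAnnihilator_ker_phi_le (K := K) h 1
  let Psi : riemannRochSpace (D + (1 - 2 : ℤ) • poleDiv h : Divisor K M) →ₗ[K]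
      (LinearMap.ker (phi (K := K) h 1)).dualAnnihilator :=
    { toFun := fun f => ⟨lam ∘ₗ tr h ∘ₗ LinearMap.mulLeft K (f : M), by
        rw [Submodule.mem_dualAnnihilator]
        intro x hx
        exact hlam0 _ (tr_mul_mem h htr 1 hD f.2 (ker_phi_le h 1 hx))⟩
      map_add' := fun f g => by
        apply Subtype.ext
        apply LinearMap.ext
        intro x
        show lam (tr h ((f + g : M) * x)) = lam (tr h (f * x)) + lam (tr h (g * x))
        rw [add_mul, map_add, map_add]
      map_smul' := fun c f => by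
        apply Subtype.ext
        apply LinearMap.ext
        intro x
        show lam (tr h ((c • (f : M)) * x)) = c • lam (tr h (f * x))
        rw [smul_mul_assoc, map_smul, map_smul] }
  have hinj : Function.Injective Psi := by
    rw [injective_iff_map_eq_zero]
    intro f hf
    by_contra hf0
    have hf0' : (f : M) ≠ 0 := fun h => hf0 (Subtype.ext h)
    obtain ⟨u, hu⟩ := Algebra.trace_surjective K⟮h⟯ M ⟨h⁻¹, inv_mem (mem_adjoin_simple_self K h)⟩
    have h1 : lam (tr (K := K) h ((f : M) * (u / f))) = 0 :=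
      LinearMap.congr_fun (congrArg Subtype.val hf) (u / f)
    rw [mul_div_cancel₀ _ hf0', tr_apply, hu] at h1
    exact hlam h1
  have h1 := LinearMap.finrank_le_finrank_of_injective hinj
  have h2 := riemann_roch (K := K) (-((1 : ℤ) • poleDiv h) : Divisor K M)
  have h3 := riemann_roch (K := K) (D + (1 - 2 : ℤ) • poleDiv h : Divisor K M)
  rw [rr_neg_poleDiv htr one_pos, map_neg, map_zsmul, degree_poleDiv htr] at h2
  rw [map_add, map_zsmul, degree_poleDiv htr] at h3
  have h4 : (0 : ℤ) ≤ finrank K (H1 (D + (1 - 2 : ℤ) • poleDiv h : Divisor K M)) :=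
    Int.natCast_nonneg _
  have h5 : (finrank K (riemannRochSpace (D + (1 - 2 : ℤ) • poleDiv h : Divisor K M)) : ℤ) ≤
      finrank K (H1 (-((1 : ℤ) • poleDiv h) : Divisor K M)) := by
    exact_mod_cast h1.trans hle
  simp only [smul_eq_mul, Nat.cast_zero, zero_sub] at h2 h3
  linarith

/-- **Riemann–Hurwitz inequality**: `∑_{Q ∈ T} (e_Q - 1) ≤ 2 g - 2 + 2 n`. -/
theorem riemann_hurwitz_le (h : M) (htr : Transcendental K h)
    [Algebra.IsSeparable K⟮h⟯ M] (T : Finset (Place K M)) :
    ∑ Q ∈ T, (ram h Q - 1) ≤ 2 * (genusFF K M : ℤ) - 2 + 2 * finrank K⟮h⟯ M := by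
  classical
  have key := degree_le_of_le_ram h htr (D := ∑ Q ∈ T, Finsupp.single Q (ram h Q - 1)) (by
    intro Q
    rw [Finsupp.finsetSum_apply]
    have h1 : ∀ P ∈ T, (Finsupp.single P (ram h P - 1) : Divisor K M) Q =
        if P = Q then ram h Q - 1 else 0 := by
      intro P _
      rw [Finsupp.single_apply]
      split_ifs with hPQ
      · rw [hPQ]
      · rfl
    rw [Finset.sum_congr rfl h1, Finset.sum_ite_eq']
    have := ram_pos (K := K) htr Q
    split_ifs <;> omega)
  refine le_trans (le_of_eq ?_) key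
  rw [map_sum]
  refine Finset.sum_congr rfl fun Q _ => ?_
  rw [Divisor.degree_single, Q.deg_eq_one_of_isAlgClosed_of_finite, Nat.cast_one, mul_one]

end Global

end Fermat.Agent.RH
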