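import Fermat.Agent.RH.Tame

/-!
# Riemann–Hurwitz formula, tame case

`riemann_hurwitz_eq`: equality in the Riemann–Hurwitz inequality when all ramification indices are
nonzero in `K`.
-/

set_option autoImplicit false

noncomputable section

open AlgebraicCurve IsDedekindDomain WithZero Module

namespace Fermat.Agent.RH

open Fermat.Agent.FunField PlaceLemmas IntermediateField Fermat.Agent.PushPull

variable {K M : Type*} [Field K] [Field M] [Algebra K M] {h : M}

theorem aeval_mem_finReg (htr : Transcendental K h) (p : Polynomial K) :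
    Polynomial.aeval h p ∈ finReg (K := K) h := by
  have hh0 : h ≠ 0 := by rintro rfl; exact htr isAlgebraic_zero
  rw [mem_finReg]
  intro Q hQ
  rw [Polynomial.aeval_eq_sum_range]
  refine Submodule.sum_mem _ fun i _ => Submodule.smul_mem _ _ (pow_mem_geSub_zero ?_ i)
  rwa [mem_geSub_of_ne hh0]

theorem mul_mem_finReg {x y : M} (hx : x ∈ finReg (K := K) h) (hy : y ∈ finReg (K := K) h) :
    x * y ∈ finReg (K := K) h := by
  rw [mem_finReg] at hx hy ⊢
  intro Q hQ
  have := mul_mem_geSub (hx Q hQ) (hy Q hQ)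
  simpa using this

theorem mul_mem_infReg {x y : M} {m n k : ℤ} (hx : x ∈ infReg (K := K) h m)
    (hy : y ∈ infReg (K := K) h n) (hk : k ≤ m + n) : x * y ∈ infReg (K := K) h k := by
  rw [mem_infReg] at hx hy ⊢
  intro Q hQ
  exact zpow_mul_zpow_mem (hx Q hQ) (hy Q hQ) (by nlinarith)

theorem inv_mem_infReg (htr : Transcendental K h) : h⁻¹ ∈ infReg (K := K) h 1 := by
  have hh0 : h ≠ 0 := by rintro rfl; exact htr isAlgebraic_zero
  rw [mem_infReg]
  intro Q hQ
  rw [mem_geSub_of_ne (inv_ne_zero hh0), Q.ord_inv, one_mul]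

theorem infReg_anti {m n : ℤ} (hmn : m ≤ n) : infReg (K := K) h n ≤ infReg h m := by
  intro x hx
  rw [mem_infReg] at hx ⊢
  intro Q hQ
  exact geSub_anti Q (by nlinarith) (hx Q hQ)

variable [IsFF K M] [IsAlgClosed K]

/-- An element of `K(h)` all of whose polynomial multiples have zero residue is regular. -/
theorem mem_finReg_of_residue (htr : Transcendental K h) {lam : M →ₗ[K] K} (hlam : lam h⁻¹ ≠ 0)
    (hlam0 : ∀ z ∈ finReg (K := K) h ⊔ infReg h 2, lam z = 0) {z : M} (hz : z ∈ K⟮h⟯)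
    (hzr : ∀ p : Polynomial K, lam (Polynomial.aeval h p * z) = 0) : z ∈ finReg (K := K) h := by
  classical
  have hh0 : h ≠ 0 := by rintro rfl; exact htr isAlgebraic_zero
  rw [mem_finReg]
  intro Q hQ
  by_contra hcon
  obtain ⟨a, ha⟩ := exists_value hQ htr
  set t := h - algebraMap K M a with ht
  have ht0 : t ≠ 0 := by intro h0; rw [h0] at ha; simp at ha
  obtain ⟨r, s, rfl⟩ := (mem_adjoin_simple_iff K z).mp hz
  have hz0 : Polynomial.aeval h r / Polynomial.aeval h s ≠ 0 := by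
    intro h0; rw [h0] at hcon; exact hcon (Submodule.zero_mem _)
  have hr0 : r ≠ 0 := by rintro rfl; simp at hz0
  have hs0 : s ≠ 0 := by rintro rfl; simp at hz0
  obtain ⟨r₁, hr, hr₁⟩ := Polynomial.exists_eq_pow_rootMultiplicity_mul_and_not_dvd r hr0 a
  obtain ⟨s₁, hs, hs₁⟩ := Polynomial.exists_eq_pow_rootMultiplicity_mul_and_not_dvd s hs0 a
  set i := Polynomial.rootMultiplicity a r with hi
  set j := Polynomial.rootMultiplicity a s with hj
  rw [Polynomial.dvd_iff_isRoot, Polynomial.IsRoot.def] at hr₁ hs₁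
  have hXa : Polynomial.aeval h (Polynomial.X - Polynomial.C a) = t := by
    rw [map_sub, Polynomial.aeval_X, Polynomial.aeval_C]
  have hrt : Polynomial.aeval h r = t ^ i * Polynomial.aeval h r₁ := by
    conv_lhs => rw [hr]
    rw [map_mul, map_pow, hXa]
  have hst : Polynomial.aeval h s = t ^ j * Polynomial.aeval h s₁ := by
    conv_lhs => rw [hs]
    rw [map_mul, map_pow, hXa]
  -- expansion at a
  have hexp : ∀ p : Polynomial K, ∃ q : Polynomial K,
      Polynomial.aeval h p = t * Polynomial.aeval h q + algebraMap K M (p.eval a) := by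
    intro p
    obtain ⟨q, hq⟩ := Polynomial.X_sub_C_dvd_sub_C_eval (p := p) (a := a)
    refine ⟨q, ?_⟩
    have h1 := congrArg (Polynomial.aeval h) hq
    rw [map_sub, Polynomial.aeval_C, map_mul, hXa] at h1
    linear_combination h1
  have hunit : ∀ p : Polynomial K, p.eval a ≠ 0 →
      Polynomial.aeval h p ≠ 0 ∧ Q.ord (Polynomial.aeval h p) = 0 := by
    intro p hp
    obtain ⟨q, hq⟩ := hexp p
    have hne : algebraMap K M (p.eval a) ≠ 0 := (map_ne_zero_iff _ (algebraMap K M).injective).mpr hp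
    have h1 : t * Polynomial.aeval h q ∈ geSub Q 1 := by
      refine zpow_mul_zpow_mem (n := 1) (m := 0) ?_ (mem_finReg.mp (aeval_mem_finReg htr q) Q hQ)
        (by norm_num)
      rw [mem_geSub_of_ne ht0]; omega
    rw [hq, add_comm]
    rcases eq_or_ne (t * Polynomial.aeval h q) 0 with h2 | h2
    · rw [h2, add_zero]; exact ⟨hne, ord_algebraMap Q _⟩
    · rw [mem_geSub_of_ne h2] at h1
      have hlt : Q.ord (algebraMap K M (p.eval a)) < Q.ord (t * Polynomial.aeval h q) := by
        rw [ord_algebraMap]; omega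
      exact ⟨add_ne_zero_of_ord_lt Q hne hlt,
        by rw [ord_add_eq_of_lt Q hne (Or.inr hlt), ord_algebraMap]⟩
  obtain ⟨hr2, hr3⟩ := hunit r₁ hr₁
  obtain ⟨hs2, hs3⟩ := hunit s₁ hs₁
  have hij : i < j := by
    by_contra hge
    push Not at hge
    apply hcon
    rw [mem_geSub_of_ne hz0, hrt, hst, ord_div Q (mul_ne_zero (pow_ne_zero _ ht0) hr2)
      (mul_ne_zero (pow_ne_zero _ ht0) hs2), Q.ord_mul (pow_ne_zero _ ht0) hr2,
      Q.ord_mul (pow_ne_zero _ ht0) hs2, hr3, hs3, ord_pow, ord_pow]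
    have : (j : ℤ) ≤ i := by exact_mod_cast hge
    nlinarith
  have hres := hzr ((Polynomial.X - Polynomial.C a) ^ (j - i - 1) * s₁)
  obtain ⟨q, hq⟩ := hexp r₁
  have h1 : Polynomial.aeval h ((Polynomial.X - Polynomial.C a) ^ (j - i - 1) * s₁) *
      (Polynomial.aeval h r / Polynomial.aeval h s) =
      Polynomial.aeval h q + (r₁.eval a) • (h⁻¹ + algebraMap K M a * (h⁻¹ * t⁻¹)) := by
    rw [map_mul, map_pow, hXa, hrt, hst, hq]
    have h2 : t ^ j = t ^ (j - i - 1) * t ^ i * t := by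
      rw [← pow_add, ← pow_succ]; congr 1; omega
    rw [h2, Algebra.smul_def]
    have h3 : h = t + algebraMap K M a := by rw [ht]; ring
    have h4 : h⁻¹ + algebraMap K M a * (h⁻¹ * t⁻¹) = t⁻¹ := by
      field_simp
      exact h3.symm
    rw [h4]
    field_simp
  rw [h1, map_add, map_smul, map_add, hlam0 _ (Submodule.mem_sup_left (aeval_mem_finReg htr q)),
    zero_add, ← Algebra.smul_def, map_smul, hlam0 (h⁻¹ * t⁻¹), smul_zero, add_zero] at hres
  · exact mul_ne_zero hr₁ hlam hres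
  · refine Submodule.mem_sup_right (mul_mem_infReg (inv_mem_infReg htr) (n := 1) ?_ (by norm_num))
    rw [mem_infReg]
    intro Q' hQ'
    rw [mem_geSub_of_ne (inv_ne_zero ht0), Q'.ord_inv, ht, ord_sub_of_neg hQ', one_mul]

omit [IsFF K M] [IsAlgClosed K] in
theorem mem_infReg_of_residue (htr : Transcendental K h) {lam : M →ₗ[K] K} (hlam : lam h⁻¹ ≠ 0)
    (hlam0 : ∀ z ∈ finReg (K := K) h ⊔ infReg h 2, lam z = 0) {z : M} (hz : z ∈ K⟮h⟯)
    (hzr : ∀ k : ℕ, lam (h⁻¹ ^ k * z) = 0) : z ∈ infReg (K := K) h 2 := by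
  have hh0 : h ≠ 0 := by rintro rfl; exact htr isAlgebraic_zero
  rcases eq_or_ne z 0 with rfl | hz0
  · exact Submodule.zero_mem _
  have htri : Transcendental K h⁻¹ := fun ha => htr (by simpa using ha.inv)
  obtain ⟨k, c, hc, hkc⟩ := exists_leading h⁻¹ htri z (by rw [adjoin_inv_eq]; exact hz) hz0
  by_contra hcon
  have hk : k < 2 := by
    by_contra hge
    push Not at hge
    apply hcon
    rw [mem_infReg]
    intro Q hQ
    rw [mem_geSub_of_ne hz0, (hkc Q (by rw [Q.ord_inv]; omega)).1, Q.ord_inv]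
    nlinarith
  obtain ⟨j, hj⟩ : ∃ j : ℕ, (j : ℤ) = 1 - k := ⟨(1 - k).toNat, by omega⟩
  have h1 := hzr j
  -- h⁻¹^j * z = h⁻¹ * (z / h⁻¹^k)
  have h2 : h⁻¹ ^ j * z = c • h⁻¹ + h⁻¹ * (z / h⁻¹ ^ k - algebraMap K M c) := by
    have h3 : h⁻¹ ^ j = h⁻¹ * (h⁻¹ ^ k)⁻¹ := by
      rw [← zpow_natCast, hj, zpow_sub₀ (inv_ne_zero hh0), zpow_one, div_eq_mul_inv]
    rw [h3, Algebra.smul_def, div_eq_mul_inv]
    ring
  rw [h2, map_add, map_smul, hlam0 (h⁻¹ * _), add_zero] at h1
  · exact mul_ne_zero hc hlam h1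
  · refine Submodule.mem_sup_right ?_
    rw [mem_infReg]
    intro Q hQ
    have hQ' : 0 < Q.ord h⁻¹ := by rw [Q.ord_inv]; omega
    set w := z / h⁻¹ ^ k - algebraMap K M c with hw
    have hwE : w ∈ K⟮h⁻¹⟯ := by
      refine sub_mem (div_mem (by rw [adjoin_inv_eq]; exact hz)
        (zpow_mem (mem_adjoin_simple_self K _) _)) (IntermediateField.algebraMap_mem _ c)
    have hwQ := (hkc Q hQ').2
    rcases eq_or_ne w 0 with hw0 | hw0
    · rw [hw0, mul_zero]; exact Submodule.zero_mem _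
    rw [mem_geSub_of_ne hw0] at hwQ
    obtain ⟨l, hl⟩ := ord_dvd h⁻¹ Q hQ' w hwE
    rw [hl] at hwQ
    have hl1 : 1 ≤ l := by
      by_contra hcon
      push Not at hcon
      nlinarith
    rw [mem_geSub_of_ne (mul_ne_zero (inv_ne_zero hh0) hw0), Q.ord_mul (inv_ne_zero hh0) hw0, hl,
      Q.ord_inv]
    rw [Q.ord_inv] at hQ'
    nlinarith

variable [Algebra.IsSeparable K⟮h⟯ M]

theorem tr_mem_of_mem (htr : Transcendental K h) {x : M}
    (hx : x ∈ finReg (K := K) h ⊔ infReg h 2) : tr (K := K) h x ∈ finReg (K := K) h ⊔ infReg h 2 := by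
  have := finiteDimensional_adjoin_of_isFF (K := K) htr
  have h1 := tr_mul_mem h htr 2 (D := 0) (f := 1) (fun Q => by
    have := ram_pos (K := K) htr Q
    rw [Finsupp.coe_zero, Pi.zero_apply]; omega) (by
    rw [sub_self, zero_smul, add_zero, mem_rr]
    intro Q
    rw [Finsupp.coe_zero, Pi.zero_apply, neg_zero]
    exact one_mem_geSub_zero Q) hx
  rwa [one_mul] at h1

/-- Every functional killing `finReg + infReg m₀` is of the form `x ↦ λ(tr(f x))`. -/
theorem exists_eq_residue (htr : Transcendental K h) {lam : M →ₗ[K] K} (hlam : lam h⁻¹ ≠ 0)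
    (hlam0 : ∀ z ∈ finReg (K := K) h ⊔ infReg h 2, lam z = 0) (m₀ : ℤ) {mu : M →ₗ[K] K}
    (hmu : ∀ z ∈ finReg (K := K) h ⊔ infReg h m₀, mu z = 0) :
    ∃ f : M, ∀ x, mu x = lam (tr (K := K) h (f * x)) := by
  classical
  have hfin := finiteDimensional_adjoin_of_isFF (K := K) htr
  by_contra hcon
  push Not at hcon
  have hn : (1 : ℤ) ≤ finrank K⟮h⟯ M := by exact_mod_cast finrank_pos
  obtain ⟨n, hndef⟩ : ∃ n : ℤ, n = (finrank K⟮h⟯ M : ℕ) := ⟨_, rfl⟩
  obtain ⟨g, hg⟩ : ∃ g : ℤ, g = (genusFF K M : ℕ) := ⟨_, rfl⟩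
  rw [← hndef] at hn
  -- choose m large
  obtain ⟨m, hm1, hm2⟩ : ∃ m : ℤ, 0 < m ∧ (m₀ + 2) * n + 3 * g - 3 < m * n := by
    refine ⟨|(m₀ + 2) * n + 3 * g - 3| + 1, by positivity, ?_⟩
    have h1 := le_abs_self ((m₀ + 2) * n + 3 * g - 3)
    have h2 := abs_nonneg ((m₀ + 2) * n + 3 * g - 3)
    nlinarith
  obtain ⟨hfinA, hle⟩ := finrank_dualAnnihilator_ker_phi_le (K := K) h m
  let L1 := riemannRochSpace ((m - m₀) • poleDiv h : Divisor K M)
  let L2 := riemannRochSpace (0 + (m - 2) • poleDiv h : Divisor K M)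
  -- multiplication by `f ∈ L1`
  have hL1 : ∀ f ∈ L1, ∀ x ∈ finReg (K := K) h ⊔ infReg h m,
      f * x ∈ finReg (K := K) h ⊔ infReg h m₀ := by
    intro f hf x hx
    obtain ⟨y, hy, z, hz, rfl⟩ := Submodule.mem_sup.mp hx
    rw [mul_add]
    have hf' := mem_rr.mp hf
    refine Submodule.add_mem_sup ?_ ?_
    · rw [mem_finReg] at hy ⊢
      intro Q hQ
      have h1 := hf' Q
      rw [Finsupp.smul_apply, poleDiv_apply, max_eq_right (by omega), smul_zero, neg_zero] at h1
      exact zpow_mul_zpow_mem h1 (hy Q hQ) (by norm_num)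
    · rw [mem_infReg] at hz ⊢
      intro Q hQ
      have h1 := hf' Q
      rw [Finsupp.smul_apply, poleDiv_apply, max_eq_left (by omega), smul_eq_mul] at h1
      exact zpow_mul_zpow_mem h1 (hz Q hQ) (by nlinarith)
  let Theta : (L1 × L2) →ₗ[K] (LinearMap.ker (phi (K := K) h m)).dualAnnihilator :=
    { toFun := fun fg => ⟨mu ∘ₗ LinearMap.mulLeft K (fg.1 : M) +
          lam ∘ₗ tr h ∘ₗ LinearMap.mulLeft K (fg.2 : M), by
        rw [Submodule.mem_dualAnnihilator]
        intro x hx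
        have hx' := ker_phi_le h m hx
        show mu ((fg.1 : M) * x) + lam (tr h ((fg.2 : M) * x)) = 0
        rw [hmu _ (hL1 _ fg.1.2 x hx'), zero_add]
        exact hlam0 _ (tr_mul_mem h htr m (D := 0) (fun Q => by
          have := ram_pos (K := K) htr Q
          rw [Finsupp.coe_zero, Pi.zero_apply]; omega) fg.2.2 hx')⟩
      map_add' := fun f g => by
        apply Subtype.ext
        apply LinearMap.ext
        intro x
        show mu (((f.1 : M) + (g.1 : M)) * x) + lam (tr h (((f.2 : M) + (g.2 : M)) * x)) =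
          (mu ((f.1 : M) * x) + lam (tr h ((f.2 : M) * x))) +
          (mu ((g.1 : M) * x) + lam (tr h ((g.2 : M) * x)))
        rw [add_mul, map_add, add_mul, map_add, map_add]
        ring
      map_smul' := fun c f => by
        apply Subtype.ext
        apply LinearMap.ext
        intro x
        show mu ((c • (f.1 : M)) * x) + lam (tr h ((c • (f.2 : M)) * x)) =
          c • (mu ((f.1 : M) * x) + lam (tr h ((f.2 : M) * x)))
        rw [smul_mul_assoc, map_smul, smul_mul_assoc, map_smul, map_smul, smul_add] }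
  have hinj : Function.Injective Theta := by
    rw [injective_iff_map_eq_zero]
    rintro ⟨f, g⟩ hfg
    have h1 : ∀ x, mu ((f : M) * x) + lam (tr h ((g : M) * x)) = 0 := fun x =>
      LinearMap.congr_fun (congrArg Subtype.val hfg) x
    have hf0 : (f : M) = 0 := by
      by_contra hf0
      obtain ⟨x, hx⟩ := hcon (-(g : M) / f)
      apply hx
      have h2 := h1 (x / f)
      rw [mul_div_cancel₀ _ hf0] at h2
      have h3 : -(g : M) / f * x = -((g : M) * (x / f)) := by ring
      rw [h3, map_neg, map_neg]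
      linear_combination h2
    have hg0 : (g : M) = 0 := by
      by_contra hg0
      obtain ⟨u, hu⟩ := Algebra.trace_surjective K⟮h⟯ M ⟨h⁻¹, inv_mem (mem_adjoin_simple_self K h)⟩
      have h2 := h1 (u / g)
      rw [hf0, zero_mul, map_zero, zero_add, mul_div_cancel₀ _ hg0, tr_apply, hu] at h2
      exact hlam h2
    exact Prod.ext (Subtype.ext hf0) (Subtype.ext hg0)
  have h1 := LinearMap.finrank_le_finrank_of_injective hinj
  rw [finrank_prod] at h1
  have h2 := riemann_roch (K := K) (-(m • poleDiv h) : Divisor K M)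
  have h3 := riemann_roch (K := K) ((m - m₀) • poleDiv h : Divisor K M)
  have h4 := riemann_roch (K := K) (0 + (m - 2) • poleDiv h : Divisor K M)
  rw [rr_neg_poleDiv htr hm1, map_neg, map_zsmul, degree_poleDiv htr] at h2
  rw [map_zsmul, degree_poleDiv htr] at h3
  rw [zero_add, map_zsmul, degree_poleDiv htr] at h4
  have h5 : (0 : ℤ) ≤ finrank K (H1 ((m - m₀) • poleDiv h : Divisor K M)) := Int.natCast_nonneg _
  have h6 : (0 : ℤ) ≤ finrank K (H1 ((m - 2) • poleDiv h : Divisor K M)) := Int.natCast_nonneg _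
  have h7 : (finrank K L1 : ℤ) + finrank K L2 ≤
      finrank K (H1 (-(m • poleDiv h) : Divisor K M)) := by
    exact_mod_cast h1.trans hle
  have h8 : (finrank K L2 : ℤ) = finrank K (riemannRochSpace ((m - 2) • poleDiv h : Divisor K M)) := by
    show (finrank K (riemannRochSpace (0 + (m - 2) • poleDiv h : Divisor K M)) : ℤ) = _
    rw [zero_add]
  rw [h8] at h7
  have h9 : (finrank K L1 : ℤ) = finrank K (riemannRochSpace ((m - m₀) • poleDiv h : Divisor K M)) :=
    rfl
  rw [h9] at h7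
  simp only [smul_eq_mul, Nat.cast_zero, zero_sub] at h2 h3 h4
  rw [← hndef, ← hg] at h2 h3 h4
  nlinarith

end Fermat.Agent.RH
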