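import Fermat.Agent.RH.Trace
import Fermat.Agent.PushPull.NormFormula

/-!
# Residue of the trace

If `f ≡ 1` at `w₀` and `f ≡ 0` at all other places over `v = w₀|F`, then
`Tr_{F'/F} f ≡ e(w₀|v)` at `v`.
-/

set_option autoImplicit false

noncomputable section

open AlgebraicCurve IsDedekindDomain WithZero Module

namespace Fermat.Agent.RH

open Fermat.Agent.FunField PlaceLemmas IntermediateField Fermat.Agent.PushPull

section Conj

variable {K F F' : Type*} [Field K] [Field F] [Field F'] [Algebra K F] [Algebra K F']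
  [Algebra F F'] [IsScalarTower K F F'] [IsFF K F'] [Module.Finite F F']

variable (F) in
/-- A valuation ring of the algebraic closure above `w₀` and the conjugate places. -/
theorem exists_conj_places (w₀ : Place K F') :
    ∃ (W : ValuationSubring (AlgebraicClosure F'))
      (P : (F' →ₐ[F] AlgebraicClosure F') → Place K F'),
      (∀ σ x, x ∈ (P σ).toValuationSubring ↔ σ x ∈ W) ∧
      (∀ σ, (P σ).restrict F = w₀.restrict F) ∧
      (∀ x : F', x ∈ w₀.toValuationSubring ↔ algebraMap F' (AlgebraicClosure F') x ∈ W) := by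
  classical
  set Ω := AlgebraicClosure F' with hΩ
  set ι : F' →+* Ω := algebraMap F' Ω with hι
  obtain ⟨W, hW, hloc⟩ := IsLocalRing.exists_factor_valuationRing
    (R := w₀.toValuationSubring) (K := Ω) (ι.comp w₀.toValuationSubring.subtype)
  have hWmem : ∀ x ∈ w₀.toValuationSubring, ι x ∈ W := fun x hx => hW ⟨x, hx⟩
  have hWiff : ∀ x : F', x ∈ w₀.toValuationSubring ↔ ι x ∈ W := by
    intro x
    refine ⟨hWmem x, fun hx => ?_⟩
    by_contra hcon
    have hx0 : x ≠ 0 := by rintro rfl; exact hcon w₀.toValuationSubring.zero_mem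
    have hxi : x⁻¹ ∈ w₀.toValuationSubring :=
      (w₀.toValuationSubring.mem_or_inv_mem x).resolve_left hcon
    have h1 : IsUnit (⟨ι x⁻¹, hWmem _ hxi⟩ : W) := by
      refine ⟨⟨⟨ι x⁻¹, hWmem _ hxi⟩, ⟨ι x, hx⟩, ?_, ?_⟩, rfl⟩
      · apply Subtype.ext
        show ι x⁻¹ * ι x = 1
        rw [← map_mul, inv_mul_cancel₀ hx0, map_one]
      · apply Subtype.ext
        show ι x * ι x⁻¹ = 1
        rw [← map_mul, mul_inv_cancel₀ hx0, map_one]
    have h2 : IsUnit (⟨x⁻¹, hxi⟩ : w₀.toValuationSubring) := hloc.map_nonunit _ h1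
    obtain ⟨u, hu⟩ := h2
    apply hcon
    have h3 : ((u : w₀.toValuationSubring) : F') * ((u⁻¹ : (w₀.toValuationSubring)ˣ) :
        w₀.toValuationSubring) = 1 := by
      have := u.mul_inv
      exact congrArg Subtype.val this
    rw [hu] at h3
    have h4 : x = (((u⁻¹ : (w₀.toValuationSubring)ˣ) : w₀.toValuationSubring) : F') := by
      field_simp at h3
      exact h3.symm
    rw [h4]
    exact ((u⁻¹ : (w₀.toValuationSubring)ˣ) : w₀.toValuationSubring).2
  have hσF : ∀ (σ : F' →ₐ[F] Ω) (y : F), σ (algebraMap F F' y) = ι (algebraMap F F' y) := by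
    intro σ y
    rw [σ.commutes]
    exact IsScalarTower.algebraMap_apply F F' Ω y
  have hK : ∀ (σ : F' →ₐ[F] Ω) (c : K), algebraMap K F' c ∈ W.comap (σ : F' →+* Ω) := by
    intro σ c
    rw [ValuationSubring.mem_comap, IsScalarTower.algebraMap_apply K F F']
    show σ _ ∈ W
    rw [hσF, ← IsScalarTower.algebraMap_apply K F F']
    exact hWmem _ (w₀.algebraMap_mem' c)
  have htop : ∀ (σ : F' →ₐ[F] Ω), W.comap (σ : F' →+* Ω) ≠ ⊤ := by
    intro σ h
    obtain ⟨f, hf⟩ : ∃ f : F, f ∉ (w₀.restrict F).toValuationSubring := by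
      by_contra hcon
      push Not at hcon
      exact (w₀.restrict F).ne_top' (by
        rw [eq_top_iff]; intro f _; exact hcon f)
    apply hf
    rw [Place.mem_restrict_iff, hWiff, ← hσF σ]
    have : algebraMap F F' f ∈ W.comap (σ : F' →+* Ω) := by
      rw [h]; exact ValuationSubring.mem_top _
    exact this
  refine ⟨W, fun σ => placeOfValuationSubring (W.comap (σ : F' →+* Ω)) (hK σ) (htop σ),
    fun σ x => Iff.rfl, fun σ => ?_, hWiff⟩
  apply Place.ext
  ext y
  rw [Place.mem_restrict_iff, Place.mem_restrict_iff, hWiff, ← hσF σ]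
  rfl

omit [IsFF K F'] in
theorem ord_pos_iff_of_mem_iff {Ω : Type*} [Field Ω] {W : ValuationSubring Ω} {Q : Place K F'}
    {σ : F' →+* Ω} (h : ∀ x, x ∈ Q.toValuationSubring ↔ σ x ∈ W) {x : F'} (hx : x ≠ 0) :
    0 < Q.ord x ↔ W.valuation (σ x) < 1 := by
  have h1 : 0 < Q.ord x ↔ ¬ (x⁻¹ ∈ Q.toValuationSubring) := by
    rw [mem_iff_ord_nonneg Q (inv_ne_zero hx), Q.ord_inv]; omega
  have hne : W.valuation (σ x) ≠ 0 := by
    rw [Valuation.ne_zero_iff, Ne, map_eq_zero]; exact hx
  rw [h1, h, map_inv₀, ← W.valuation_le_one_iff, map_inv₀, inv_le_one₀ (zero_lt_iff.mpr hne),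
    not_le]

omit [IsFF K F'] in
theorem ord_eq_zero_iff_of_mem_iff {Ω : Type*} [Field Ω] {W : ValuationSubring Ω}
    {Q : Place K F'} {σ : F' →+* Ω} (h : ∀ x, x ∈ Q.toValuationSubring ↔ σ x ∈ W) {x : F'}
    (hx : x ≠ 0) : Q.ord x = 0 ↔ W.valuation (σ x) = 1 := by
  have h1 := ord_pos_iff_of_mem_iff h hx
  have h2 := ord_pos_iff_of_mem_iff h (inv_ne_zero hx)
  have hne : W.valuation (σ x) ≠ 0 := by
    rw [Valuation.ne_zero_iff, Ne, map_eq_zero]; exact hx
  rw [Q.ord_inv, map_inv₀, map_inv₀, inv_lt_one₀ (zero_lt_iff.mpr hne)] at h2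
  constructor
  · intro h0
    apply le_antisymm
    · by_contra hc; have := h2.mpr (not_le.mp hc); omega
    · by_contra hc; have := h1.mpr (not_le.mp hc); omega
  · intro h0
    by_contra hc
    rcases lt_or_gt_of_ne hc with h3 | h3
    · have := h2.mp (by omega); rw [h0] at this; exact lt_irrefl _ this
    · have := h1.mp h3; rw [h0] at this; exact lt_irrefl _ this

variable [IsFF K F] [IsAlgClosed K] [Algebra.IsSeparable F F']

open Classical in
/-- The number of embeddings inducing `w₀` is the ramification index. -/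
theorem card_conj (w₀ : Place K F') {W : ValuationSubring (AlgebraicClosure F')}
    {P : (F' →ₐ[F] AlgebraicClosure F') → Place K F'}
    (hP : ∀ σ x, x ∈ (P σ).toValuationSubring ↔ σ x ∈ W)
    (hPv : ∀ σ, (P σ).restrict F = w₀.restrict F)
    (hW : ∀ x : F', x ∈ w₀.toValuationSubring ↔ algebraMap F' (AlgebraicClosure F') x ∈ W) :
    (Finset.univ.filter fun σ : F' →ₐ[F] AlgebraicClosure F' => P σ = w₀).card =
      w₀.ramificationIndex F := by
  set Ω := AlgebraicClosure F' with hΩ
  set v := w₀.restrict F with hv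
  -- a function with prescribed orders
  obtain ⟨x, hx0, hx⟩ := exists_forall_ord_eq (fun w : (v.fiber F') => (w : Place K F'))
    Subtype.val_injective (fun w => if (w : Place K F') = w₀ then 1 else 0)
  have hxw₀ : w₀.ord x = 1 := by
    have := hx ⟨w₀, Place.mem_fiber.mpr rfl⟩
    simpa using this
  have hxw : ∀ w : Place K F', w.restrict F = v → w ≠ w₀ → w.ord x = 0 := by
    intro w hw hne
    have := hx ⟨w, Place.mem_fiber.mpr hw⟩
    simpa [hne] using this
  obtain ⟨t, ht0, ht⟩ := exists_ord_eq_one v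
  set t' := algebraMap F F' t with ht'
  have ht'0 : t' ≠ 0 := by rw [ht']; simpa using ht0
  have hvalt : W.valuation (algebraMap F Ω t) < 1 := by
    have h1 : 0 < w₀.ord t' := by
      rw [ht', w₀.ord_restrict, ← hv, ht, mul_one]
      exact_mod_cast w₀.ramificationIndex_pos (F := F)
    have h2 := (ord_pos_iff_of_mem_iff (σ := algebraMap F' Ω) hW ht'0).mp h1
    rwa [ht', ← IsScalarTower.algebraMap_apply F F' Ω] at h2
  have hvalt0 : W.valuation (algebraMap F Ω t) ≠ 0 := by
    rw [Valuation.ne_zero_iff, Ne, map_eq_zero]; exact ht0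
  -- values of conjugates
  have h1 : ∀ σ : F' →ₐ[F] Ω, P σ = w₀ →
      W.valuation (σ x) ^ (w₀.ramificationIndex F) = W.valuation (algebraMap F Ω t) := by
    intro σ hσ
    have h2 : w₀.ord (x ^ (w₀.ramificationIndex F) / t') = 0 := by
      rw [ord_div w₀ (pow_ne_zero _ hx0) ht'0, ord_pow, hxw₀, ht', w₀.ord_restrict, ← hv, ht]
      ring
    have h3 := (ord_eq_zero_iff_of_mem_iff (σ := (σ : F' →+* Ω)) (Q := P σ) (hP σ)
      (div_ne_zero (pow_ne_zero _ hx0) ht'0)).mp (by rw [hσ]; exact h2)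
    rw [map_div₀, map_div₀, map_pow, map_pow] at h3
    have h4 : (σ : F' →+* Ω) t' = algebraMap F Ω t := σ.commutes t
    rw [h4, div_eq_one_iff_eq hvalt0] at h3
    exact h3
  have h2 : ∀ σ : F' →ₐ[F] Ω, P σ ≠ w₀ → W.valuation (σ x) = 1 := by
    intro σ hσ
    exact (ord_eq_zero_iff_of_mem_iff (σ := (σ : F' →+* Ω)) (Q := P σ) (hP σ) hx0).mp
      (hxw _ (hPv σ) hσ)
  -- the norm
  have hN0 : Algebra.norm F x ≠ 0 := norm_ne_zero hx0
  have hN : v.ord (Algebra.norm F x) = 1 := by
    rw [ord_norm v hx0, Finset.sum_eq_single_of_mem w₀ (Place.mem_fiber.mpr rfl)]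
    · exact hxw₀
    · intro w hw hne
      exact hxw w (Place.mem_fiber.mp hw) hne
  have hvalN : W.valuation (algebraMap F Ω (Algebra.norm F x)) =
      W.valuation (algebraMap F Ω t) := by
    have h3 : w₀.ord (algebraMap F F' (Algebra.norm F x / t)) = 0 := by
      rw [w₀.ord_restrict, ord_div _ hN0 ht0, ← hv, hN, ht]; simp
    have h4 := (ord_eq_zero_iff_of_mem_iff (σ := algebraMap F' Ω) hW
      (by simpa using div_ne_zero hN0 ht0)).mp h3
    rw [← IsScalarTower.algebraMap_apply F F' Ω, map_div₀, map_div₀,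
      div_eq_one_iff_eq hvalt0] at h4
    exact h4
  have hprod : algebraMap F Ω (Algebra.norm F x) = ∏ σ : F' →ₐ[F] Ω, σ x :=
    Algebra.norm_eq_prod_embeddings F Ω x
  rw [hprod, map_prod, ← Finset.prod_filter_mul_prod_filter_not Finset.univ
    (fun σ : F' →ₐ[F] Ω => P σ = w₀)] at hvalN
  rw [Finset.prod_eq_one (s := Finset.univ.filter fun σ : F' →ₐ[F] Ω => ¬ P σ = w₀)
    (fun σ hσ => h2 σ (Finset.mem_filter.mp hσ).2), mul_one] at hvalN
  have h3 := congrArg (fun z => z ^ (w₀.ramificationIndex F)) hvalN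
  simp only [← Finset.prod_pow] at h3
  rw [Finset.prod_congr rfl (fun σ hσ => h1 σ (Finset.mem_filter.mp hσ).2),
    Finset.prod_const] at h3
  exact (pow_right_injective₀ (zero_lt_iff.mpr hvalt0) hvalt.ne) h3

/-- **Residue of the trace**. -/
theorem trace_residue (w₀ : Place K F') (f : F') (h1 : f = 1 ∨ 0 < w₀.ord (f - 1))
    (h0 : ∀ w : Place K F', w.restrict F = w₀.restrict F → w ≠ w₀ → f = 0 ∨ 0 < w.ord f) :
    Algebra.trace F F' f = (w₀.ramificationIndex F : F) ∨
      0 < (w₀.restrict F).ord (Algebra.trace F F' f - (w₀.ramificationIndex F : F)) := by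
  classical
  set Ω := AlgebraicClosure F' with hΩ
  obtain ⟨W, P, hP, hPv, hW⟩ := exists_conj_places F w₀
  have hcard := card_conj w₀ hP hPv hW
  have hsum : algebraMap F Ω (Algebra.trace F F' f) = ∑ σ : F' →ₐ[F] Ω, σ f :=
    trace_eq_sum_embeddings Ω
  have hdiff : algebraMap F Ω (Algebra.trace F F' f - (w₀.ramificationIndex F : F)) =
      ∑ σ : F' →ₐ[F] Ω, (σ f - if P σ = w₀ then 1 else 0) := by
    rw [map_sub, hsum, Finset.sum_sub_distrib, map_natCast, ← hcard]
    congr 1
    rw [Finset.sum_ite, Finset.sum_const_zero, add_zero, Finset.sum_const, nsmul_eq_mul, mul_one]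
  have hlt : W.valuation (algebraMap F Ω
      (Algebra.trace F F' f - (w₀.ramificationIndex F : F))) < 1 := by
    rw [hdiff]
    refine Valuation.map_sum_lt _ one_ne_zero fun σ _ => ?_
    split_ifs with hσ
    · rcases h1 with h1 | h1
      · rw [h1, map_one, sub_self, map_zero]; exact zero_lt_one
      · have hne : f - 1 ≠ 0 := by intro h; rw [h] at h1; simp at h1
        have := (ord_pos_iff_of_mem_iff (σ := (σ : F' →+* Ω)) (Q := P σ) (hP σ) hne).mp
          (by rw [hσ]; exact h1)
        rw [map_sub, map_one] at this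
        exact this
    · rw [sub_zero]
      rcases h0 (P σ) (hPv σ) hσ with h2 | h2
      · rw [h2, map_zero, map_zero]; exact zero_lt_one
      · have hne : f ≠ 0 := by rintro rfl; simp at h2
        exact (ord_pos_iff_of_mem_iff (σ := (σ : F' →+* Ω)) (Q := P σ) (hP σ) hne).mp h2
  rw [or_iff_not_imp_left]
  intro hne
  rw [← sub_eq_zero] at hne
  set z := Algebra.trace F F' f - (w₀.ramificationIndex F : F) with hz
  have hz' : algebraMap F F' z ≠ 0 := by simpa using hne
  have h3 : 0 < w₀.ord (algebraMap F F' z) := by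
    rw [ord_pos_iff_of_mem_iff (σ := algebraMap F' Ω) hW hz',
      ← IsScalarTower.algebraMap_apply F F' Ω]
    exact hlt
  rw [w₀.ord_restrict] at h3
  exact pos_of_mul_pos_right h3 (Int.natCast_nonneg _) 

end Conj

end Fermat.Agent.RH
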