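import Fermat.Agent.RH.Main
import Fermat.Agent.RH.TraceResidue

/-!
# Local computations for the tame Riemann–Hurwitz formula
-/

set_option autoImplicit false

noncomputable section

open AlgebraicCurve IsDedekindDomain WithZero Module

namespace Fermat.Agent.RH

open Fermat.Agent.FunField PlaceLemmas IntermediateField Fermat.Agent.PushPull

variable {K M : Type*} [Field K] [Field M] [Algebra K M]

theorem isFF_adjoin {h : M} (htr : Transcendental K h) : IsFF K K⟮h⟯ := by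
  refine ⟨⟨AdjoinSimple.gen K h, ?_, ?_⟩⟩
  · intro ha
    exact htr ((isAlgebraic_algebraMap_iff (A := M)
      (algebraMap K⟮h⟯ M).injective).mpr ha)
  · have h1 : K⟮AdjoinSimple.gen K h⟯ = ⊤ := by
      rw [eq_top_iff]
      rintro ⟨x, hx⟩ -
      have h2 : K⟮AdjoinSimple.gen K h⟯.map (K⟮h⟯).val = K⟮h⟯ := by
        rw [adjoin_map, Set.image_singleton]
        rfl
      have h3 : x ∈ K⟮AdjoinSimple.gen K h⟯.map (K⟮h⟯).val := by rw [h2]; exact hx
      obtain ⟨y, hy, hyx⟩ := h3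
      have : y = ⟨x, hx⟩ := Subtype.ext hyx
      rwa [← this]
    rw [h1]
    exact FiniteDimensional.of_finrank_pos (by rw [IntermediateField.finrank_top]; exact one_pos)

/-- ramification index in terms of a uniformizer of `K(h)`. -/
theorem ramificationIndex_eq [IsFF K M] {h t : M} (ht : K⟮t⟯ = K⟮h⟯) [Module.Finite K⟮h⟯ M]
    (Q : Place K M) (hQ : 0 < Q.ord t) :
    (Q.ramificationIndex K⟮h⟯ : ℤ) = Q.ord t := by
  have htE : t ∈ K⟮h⟯ := by rw [← ht]; exact mem_adjoin_simple_self K t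
  have ht0 : t ≠ 0 := by rintro rfl; simp at hQ
  apply le_antisymm
  · exact Q.ramificationIndex_le_ord (F := K⟮h⟯) (f := ⟨t, htE⟩)
      (by intro h0; exact ht0 (congrArg Subtype.val h0)) hQ
  · obtain ⟨f, hf0, hf⟩ := Q.exists_ord_eq_ramificationIndex (F := K⟮h⟯)
    have h1 := ord_dvd t Q hQ (f : M) (by rw [ht]; exact f.2)
    have h2 : (algebraMap K⟮h⟯ M f) = (f : M) := rfl
    rw [h2] at hf
    rw [hf] at h1
    exact Int.le_of_dvd (by exact_mod_cast Q.ramificationIndex_pos (F := K⟮h⟯)) h1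

/-- leading term of an element of `K(t)` at `t = 0`. -/
theorem exists_leading (t : M) (htr : Transcendental K t) (z : M) (hz : z ∈ K⟮t⟯) (hz0 : z ≠ 0) :
    ∃ (k : ℤ) (c : K), c ≠ 0 ∧ ∀ Q : Place K M, 0 < Q.ord t →
      Q.ord z = k * Q.ord t ∧ z / t ^ k - algebraMap K M c ∈ geSub Q 1 := by
  classical
  have ht0 : t ≠ 0 := fun h0 => htr (h0 ▸ isAlgebraic_zero)
  obtain ⟨r, s, rfl⟩ := (mem_adjoin_simple_iff K z).mp hz
  have hr0 : r ≠ 0 := by rintro rfl; simp at hz0
  have hs0 : s ≠ 0 := by rintro rfl; simp at hz0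
  obtain ⟨r₁, hr, hr₁⟩ := Polynomial.exists_eq_pow_rootMultiplicity_mul_and_not_dvd r hr0 0
  obtain ⟨s₁, hs, hs₁⟩ := Polynomial.exists_eq_pow_rootMultiplicity_mul_and_not_dvd s hs0 0
  set i := Polynomial.rootMultiplicity 0 r with hi
  set j := Polynomial.rootMultiplicity 0 s with hj
  rw [map_zero, sub_zero] at hr hs hr₁ hs₁
  rw [Polynomial.X_dvd_iff] at hr₁ hs₁
  have haev : ∀ p : Polynomial K, ∀ Q : Place K M, 0 < Q.ord t → p.coeff 0 = 0 →
      Polynomial.aeval t p ∈ geSub Q 1 := by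
    intro p Q hQ hp
    obtain ⟨q, rfl⟩ := Polynomial.X_dvd_iff.mpr hp
    rw [map_mul, Polynomial.aeval_X]
    have h1 : t ∈ geSub Q 1 := by rw [mem_geSub_of_ne ht0]; omega
    have h2 : Polynomial.aeval t q ∈ geSub Q 0 := by
      rw [Polynomial.aeval_eq_sum_range]
      refine Submodule.sum_mem _ fun i _ => Submodule.smul_mem _ _ (pow_mem_geSub_zero ?_ i)
      exact geSub_anti Q (by norm_num) h1
    have := mul_mem_geSub h1 h2
    simpa using this
  have hunit : ∀ p : Polynomial K, ∀ Q : Place K M, 0 < Q.ord t → p.coeff 0 ≠ 0 →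
      Polynomial.aeval t p ≠ 0 ∧ Q.ord (Polynomial.aeval t p) = 0 := by
    intro p Q hQ hp
    have h1 := haev (p - Polynomial.C (p.coeff 0)) Q hQ (by simp)
    rw [map_sub, Polynomial.aeval_C] at h1
    have hne : algebraMap K M (p.coeff 0) ≠ 0 := by simpa using hp
    have h2 : Polynomial.aeval t p = algebraMap K M (p.coeff 0) +
      (Polynomial.aeval t p - algebraMap K M (p.coeff 0)) := by ring
    rcases eq_or_ne (Polynomial.aeval t p - algebraMap K M (p.coeff 0)) 0 with h3 | h3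
    · rw [sub_eq_zero] at h3
      rw [h3]; exact ⟨hne, ord_algebraMap Q _⟩
    · rw [mem_geSub_of_ne h3] at h1
      have hlt : Q.ord (algebraMap K M (p.coeff 0)) <
          Q.ord (Polynomial.aeval t p - algebraMap K M (p.coeff 0)) := by
        rw [ord_algebraMap]; omega
      constructor
      · rw [h2]; exact add_ne_zero_of_ord_lt Q hne hlt
      · rw [h2, ord_add_eq_of_lt Q hne (Or.inr hlt), ord_algebraMap]
  have hrt : Polynomial.aeval t r = t ^ i * Polynomial.aeval t r₁ := by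
    conv_lhs => rw [hr]
    rw [map_mul, map_pow, Polynomial.aeval_X]
  have hst : Polynomial.aeval t s = t ^ j * Polynomial.aeval t s₁ := by
    conv_lhs => rw [hs]
    rw [map_mul, map_pow, Polynomial.aeval_X]
  refine ⟨(i : ℤ) - j, r₁.coeff 0 / s₁.coeff 0, div_ne_zero hr₁ hs₁, fun Q hQ => ?_⟩
  obtain ⟨hr2, hr3⟩ := hunit r₁ Q hQ hr₁
  obtain ⟨hs2, hs3⟩ := hunit s₁ Q hQ hs₁
  constructor
  · rw [hrt, hst, ord_div Q (mul_ne_zero (pow_ne_zero _ ht0) hr2)
      (mul_ne_zero (pow_ne_zero _ ht0) hs2), Q.ord_mul (pow_ne_zero _ ht0) hr2,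
      Q.ord_mul (pow_ne_zero _ ht0) hs2, hr3, hs3, ord_pow, ord_pow]
    ring
  · have h1 : Polynomial.aeval t r / Polynomial.aeval t s / t ^ ((i : ℤ) - j) =
        Polynomial.aeval t r₁ / Polynomial.aeval t s₁ := by
      rw [hrt, hst, zpow_sub₀ ht0, zpow_natCast, zpow_natCast]
      field_simp
    have hne : algebraMap K M (s₁.coeff 0) ≠ 0 := by simpa using hs₁
    have h2 : Polynomial.aeval t r₁ / Polynomial.aeval t s₁ -
        algebraMap K M (r₁.coeff 0 / s₁.coeff 0) =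
        Polynomial.aeval t (r₁ - Polynomial.C (r₁.coeff 0 / s₁.coeff 0) * s₁) *
          (Polynomial.aeval t s₁)⁻¹ := by
      rw [map_sub, map_mul, Polynomial.aeval_C, sub_mul, mul_assoc, mul_inv_cancel₀ hs2,
        mul_one, div_eq_mul_inv]
    rw [h1, h2]
    have h3 := haev (r₁ - Polynomial.C (r₁.coeff 0 / s₁.coeff 0) * s₁) Q hQ (by
      rw [Polynomial.coeff_sub, Polynomial.coeff_C_mul]
      field_simp
      ring)
    have h4 : (Polynomial.aeval t s₁)⁻¹ ∈ geSub Q 0 := by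
      rw [mem_geSub_of_ne (inv_ne_zero hs2), Q.ord_inv, hs3]; norm_num
    have := mul_mem_geSub h3 h4
    simpa using this

/-- The key contradiction in the tame case. -/
theorem tame_contra [IsFF K M] [IsAlgClosed K] {h t : M} (htr : Transcendental K h)
    (ht : K⟮t⟯ = K⟮h⟯)
    [Algebra.IsSeparable K⟮h⟯ M] (Q₀ : Place K M) (hQ₀ : 0 < Q₀.ord t)
    (htame : ((Q₀.ord t : ℤ) : K) ≠ 0) (F : M) (hF1 : F - 1 ∈ geSub Q₀ 1)
    (hF0 : ∀ w : Place K M, 0 < w.ord t → w ≠ Q₀ → F ∈ geSub w 1)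
    (hT : tr (K := K) h F ∈ geSub Q₀ 1) : False := by
  have hfin := finiteDimensional_adjoin_of_isFF (K := K) htr
  have hFF := isFF_adjoin htr
  have htE : t ∈ K⟮h⟯ := by rw [← ht]; exact mem_adjoin_simple_self K t
  have ht0 : t ≠ 0 := by rintro rfl; simp at hQ₀
  have hram := ramificationIndex_eq ht Q₀ hQ₀
  have key := trace_residue (F := K⟮h⟯) Q₀ F (by
      rcases eq_or_ne F 1 with h1 | h1
      · exact Or.inl h1
      · right
        rw [mem_geSub_of_ne (sub_ne_zero.mpr h1)] at hF1; omega) (by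
      intro w hw hne
      have h1 : 0 < w.ord t := by
        have h2 := w.ord_restrict (F := K⟮h⟯) ⟨t, htE⟩
        have h3 := Q₀.ord_restrict (F := K⟮h⟯) ⟨t, htE⟩
        have h4 : (algebraMap K⟮h⟯ M ⟨t, htE⟩) = t := rfl
        rw [h4] at h2 h3
        have h5 := w.ramificationIndex_pos (F := K⟮h⟯)
        have h6 := Q₀.ramificationIndex_pos (F := K⟮h⟯)
        rw [hw] at h2
        have h7 : 0 < (Q₀.restrict K⟮h⟯).ord ⟨t, htE⟩ := by
          rw [h3] at hQ₀
          exact pos_of_mul_pos_right hQ₀ (Int.natCast_nonneg _)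
        rw [h2]
        exact mul_pos (by exact_mod_cast h5) h7
      rcases eq_or_ne F 0 with h2 | h2
      · exact Or.inl h2
      · right
        have := hF0 w h1 hne
        rw [mem_geSub_of_ne h2] at this; omega)
  have h1 : tr (K := K) h F - algebraMap K M ((Q₀.ord t : ℤ) : K) ∈ geSub Q₀ 1 := by
    have h2 : algebraMap K M ((Q₀.ord t : ℤ) : K) =
        algebraMap K⟮h⟯ M ((Q₀.ramificationIndex K⟮h⟯ : ℕ) : K⟮h⟯) := by
      rw [← hram]; simp
    have h3 : tr (K := K) h F - algebraMap K M ((Q₀.ord t : ℤ) : K) =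
        algebraMap K⟮h⟯ M (Algebra.trace K⟮h⟯ M F - ((Q₀.ramificationIndex K⟮h⟯ : ℕ) : K⟮h⟯)) := by
      rw [map_sub, h2]; rfl
    rcases key with key | key
    · rw [h3, key, sub_self, map_zero]; exact Submodule.zero_mem _
    · rw [h3]
      have hne : (Algebra.trace K⟮h⟯ M F - ((Q₀.ramificationIndex K⟮h⟯ : ℕ) : K⟮h⟯)) ≠ 0 := by
        intro h0; rw [h0] at key; simp at key
      rw [mem_geSub_of_ne ((map_ne_zero_iff _ (algebraMap K⟮h⟯ M).injective).mpr hne),
        Q₀.ord_restrict]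
      have h5 := Q₀.ramificationIndex_pos (F := K⟮h⟯)
      have : 0 < (Q₀.ramificationIndex K⟮h⟯ : ℤ) * (Q₀.restrict K⟮h⟯).ord
        (Algebra.trace K⟮h⟯ M F - ((Q₀.ramificationIndex K⟮h⟯ : ℕ) : K⟮h⟯)) :=
        mul_pos (by exact_mod_cast h5) key
      omega
  have h2 : algebraMap K M ((Q₀.ord t : ℤ) : K) ∈ geSub Q₀ 1 := by
    have := Submodule.sub_mem _ hT h1
    rwa [sub_sub_cancel] at this
  rw [mem_geSub_of_ne ((map_ne_zero_iff _ (algebraMap K M).injective).mpr htame),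
    ord_algebraMap] at h2
  omega

theorem adjoin_inv_eq' (h : M) : K⟮h⁻¹⟯ = K⟮h⟯ := adjoin_inv_eq h

theorem zpow_mul_zpow_mem {Q : Place K M} {f : M} {n : ℤ} (hf : f ∈ geSub Q n) {g : M} {m : ℤ}
    (hg : g ∈ geSub Q m) {k : ℤ} (hk : k ≤ n + m) : f * g ∈ geSub Q k :=
  geSub_anti Q hk (mul_mem_geSub hf hg)

section Codiff

variable [IsFF K M] [IsAlgClosed K] {h : M} (htr : Transcendental K h)
  [Algebra.IsSeparable K⟮h⟯ M]

include htr

omit [IsAlgClosed K] [Algebra.IsSeparable K⟮h⟯ M] in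
/-- strong approximation away from the poles of `h`. -/
theorem strong_approx (S : Finset (Place K M)) (hS : ∀ Q ∈ S, 0 ≤ Q.ord h)
    (a : Place K M → M) (n : Place K M → ℤ) :
    ∃ x : M, (∀ Q ∈ S, x - a Q ∈ geSub Q (n Q)) ∧
      (∀ Q : Place K M, Q ∉ S → 0 ≤ Q.ord h → x ∈ geSub Q 0) := by
  classical
  obtain ⟨N₀, hN₀⟩ := exists_h1_vanishing (K := K) (F := M)
  have hn : 0 < finrank K⟮h⟯ M := by
    have := finiteDimensional_adjoin_of_isFF (K := K) htr
    exact finrank_pos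
  set D₀ : Divisor K M := ∑ Q ∈ S, Finsupp.single Q (- |n Q|) with hD₀
  set N : ℤ := |N₀| + |Divisor.degree D₀| with hN
  set D : Divisor K M := D₀ + N • poleDiv h with hD
  have hNnn : 0 ≤ N := by positivity
  have hdeg : N₀ ≤ Divisor.degree D := by
    rw [hD, map_add, map_zsmul, degree_poleDiv htr, smul_eq_mul]
    have h1 : (1 : ℤ) ≤ finrank K⟮h⟯ M := by exact_mod_cast hn
    have h2 : N ≤ N * finrank K⟮h⟯ M := by nlinarith
    have h3 := le_abs_self N₀
    have h4 := neg_abs_le (Divisor.degree D₀)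
    omega
  have hsub := hN₀ D hdeg
  -- adele
  have hD₀apply : ∀ Q : Place K M, D₀ Q = if Q ∈ S then - |n Q| else 0 := by
    intro Q
    rw [hD₀, Finsupp.finsetSum_apply]
    simp only [Finsupp.single_apply]
    rw [Finset.sum_ite_eq']
  let α : repartitions K M := ⟨fun Q => if Q ∈ S then a Q else 0, by
    rw [mem_repartitions_iff]
    refine (S.finite_toSet).subset fun Q hQ => ?_
    by_contra hcon
    apply hQ
    have : Q ∉ S := hcon
    simp only [if_neg this]
    exact Submodule.zero_mem _⟩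
  have hα : (Submodule.Quotient.mk α : H1 D) = 0 := Subsingleton.elim _ _
  rw [mk_eq_zero_iff] at hα
  obtain ⟨x, hx⟩ := hα
  rw [mem_repOf] at hx
  have hx' : ∀ Q : Place K M, (if Q ∈ S then a Q else 0) - x ∈ geSub Q (-(D Q)) := hx
  have hDfin : ∀ Q : Place K M, 0 ≤ Q.ord h → D Q = D₀ Q := by
    intro Q hQ
    rw [hD, Finsupp.add_apply, Finsupp.smul_apply, poleDiv_apply, max_eq_right (by omega),
      smul_zero, add_zero]
  refine ⟨x, fun Q hQ => ?_, fun Q hQ hQh => ?_⟩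
  · have h1 := hx' Q
    rw [if_pos hQ, hDfin Q (hS Q hQ), hD₀apply, if_pos hQ, neg_neg] at h1
    have h2 := Submodule.neg_mem _ (geSub_anti Q (le_abs_self (n Q)) h1)
    rwa [neg_sub] at h2
  · have h1 := hx' Q
    rw [if_neg hQ, hDfin Q hQh, hD₀apply, if_neg hQ, neg_zero, zero_sub] at h1
    have h2 := Submodule.neg_mem _ h1
    rwa [neg_neg] at h2

/-- codifferent bound at finite places. -/
theorem ord_ge_of_trace_fin {f : M} (hf : ∀ x ∈ finReg (K := K) h, tr (K := K) h (f * x) ∈ finReg (K := K) h)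
    (Q₀ : Place K M) (hQ₀ : 0 ≤ Q₀.ord h) (htame : ((ram h Q₀ : ℤ) : K) ≠ 0) :
    f ∈ geSub Q₀ (-(ram h Q₀ - 1)) := by
  classical
  by_contra hcon
  have hf0 : f ≠ 0 := by rintro rfl; exact hcon (Submodule.zero_mem _)
  rw [mem_geSub_of_ne hf0] at hcon
  obtain ⟨a, ha⟩ := exists_value hQ₀ htr
  set t := h - algebraMap K M a with ht
  rw [ram_of_pos ha, ← ht] at hcon htame
  have ht0 : t ≠ 0 := by intro h0; rw [h0] at ha; simp at ha
  have htf0 : t * f ≠ 0 := mul_ne_zero ht0 hf0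
  have hS : ∀ Q ∈ (finite_zeros (K := K) t ht0).toFinset, 0 ≤ Q.ord h := by
    intro Q hQ
    rw [Set.Finite.mem_toFinset] at hQ
    by_contra hneg
    have h1 : 0 < Q.ord t := hQ
    rw [ht, ord_sub_of_neg (not_le.mp hneg)] at h1
    omega
  obtain ⟨x, hx1, hx2⟩ := strong_approx htr (finite_zeros (K := K) t ht0).toFinset hS
    (fun Q => if Q = Q₀ then (t * f)⁻¹ else 0)
    (fun Q => max 0 (1 - Q.ord (t * f)))
  have hQ₀S : Q₀ ∈ (finite_zeros (K := K) t ht0).toFinset := by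
    rw [Set.Finite.mem_toFinset]; exact ha
  have hord₀ : Q₀.ord (t * f) = Q₀.ord t + Q₀.ord f := Q₀.ord_mul ht0 hf0
  have hxreg : x ∈ finReg (K := K) h := by
    rw [mem_finReg]
    intro Q hQ
    by_cases hQS : Q ∈ (finite_zeros (K := K) t ht0).toFinset
    · have h1 := geSub_anti Q (le_max_left _ _) (hx1 Q hQS)
      have h2 : x = (x - (if Q = Q₀ then (t * f)⁻¹ else 0)) +
          (if Q = Q₀ then (t * f)⁻¹ else 0) := by ring
      rw [h2]
      refine Submodule.add_mem _ h1 ?_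
      split_ifs with h3
      · rw [mem_geSub_of_ne (inv_ne_zero htf0), Q.ord_inv, h3, hord₀]
        omega
      · exact Submodule.zero_mem _
    · exact hx2 Q hQS hQ
  have hT := hf x hxreg
  rw [mem_finReg] at hT
  have htE : t ∈ K⟮h⟯ := by rw [← adjoin_sub_eq h a]; exact mem_adjoin_simple_self K _
  refine tame_contra htr (adjoin_sub_eq h a) Q₀ ha htame (t * f * x) ?_ ?_ ?_
  · have h1 := geSub_anti Q₀ (le_max_right _ _) (hx1 Q₀ hQ₀S)
    rw [if_pos rfl] at h1
    have h2 : t * f * x - 1 = (t * f) * (x - (t * f)⁻¹) := by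
      rw [mul_sub, mul_inv_cancel₀ htf0]
    rw [h2]
    have h3 : t * f ∈ geSub Q₀ (Q₀.ord (t * f)) := by rw [mem_geSub_of_ne htf0]
    exact zpow_mul_zpow_mem h3 h1 (by omega)
  · intro w hw hne
    have hwS : w ∈ (finite_zeros (K := K) t ht0).toFinset := by
      rw [Set.Finite.mem_toFinset]; exact hw
    have h1 := geSub_anti w (le_max_right _ _) (hx1 w hwS)
    rw [if_neg hne, sub_zero] at h1
    have h3 : t * f ∈ geSub w (w.ord (t * f)) := by rw [mem_geSub_of_ne htf0]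
    exact zpow_mul_zpow_mem h3 h1 (by omega)
  · rw [mul_assoc, tr_smul h htE]
    have h1 : t ∈ geSub Q₀ 1 := by rw [mem_geSub_of_ne ht0]; omega
    exact zpow_mul_zpow_mem h1 (hT Q₀ hQ₀) (by omega)

/-- codifferent bound at infinite places. -/
theorem ord_ge_of_trace_inf {f : M} {m : ℤ}
    (hf : ∀ x ∈ infReg (K := K) h m, tr (K := K) h (f * x) ∈ infReg (K := K) h 2)
    (Q₀ : Place K M) (hQ₀ : Q₀.ord h < 0) (htame : ((ram h Q₀ : ℤ) : K) ≠ 0) :
    f ∈ geSub Q₀ (-(ram h Q₀ - 1) - (m - 2) * -Q₀.ord h) := by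
  classical
  by_contra hcon
  have hf0 : f ≠ 0 := by rintro rfl; exact hcon (Submodule.zero_mem _)
  rw [mem_geSub_of_ne hf0] at hcon
  rw [ram_of_neg hQ₀] at hcon htame
  have hh0 : h ≠ 0 := by rintro rfl; simp at hQ₀
  have hhf0 : h * f ≠ 0 := mul_ne_zero hh0 hf0
  have hti : ∀ Q : Place K M, Q.ord h⁻¹ = -Q.ord h := fun Q => Q.ord_inv h
  have hfinS := finite_zeros (K := K) h⁻¹ (inv_ne_zero hh0)
  obtain ⟨x, hx⟩ := weak_approximation' (fun Q : hfinS.toFinset => (Q : Place K M))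
    Subtype.val_injective
    (fun Q => if (Q : Place K M) = Q₀ then (h * f)⁻¹ else 0)
    (fun Q => max (m * -(Q : Place K M).ord h) (1 - (Q : Place K M).ord (h * f)))
  have hx1 : ∀ Q : Place K M, Q.ord h < 0 → x - (if Q = Q₀ then (h * f)⁻¹ else 0) ∈
      geSub Q (max (m * -Q.ord h) (1 - Q.ord (h * f))) := by
    intro Q hQ
    have hQS : Q ∈ hfinS.toFinset := by
      rw [Set.Finite.mem_toFinset]
      show 0 < Q.ord h⁻¹
      rw [hti]; omega
    have := hx ⟨Q, hQS⟩
    rcases this with h1 | h1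
    · have h1' : x = (if Q = Q₀ then (h * f)⁻¹ else 0) := h1
      rw [← h1', sub_self]; exact Submodule.zero_mem _
    · rcases eq_or_ne (x - (if Q = Q₀ then (h * f)⁻¹ else 0)) 0 with h2 | h2
      · rw [h2]; exact Submodule.zero_mem _
      · rw [mem_geSub_of_ne h2]; exact h1
  have hord₀ : Q₀.ord (h * f) = Q₀.ord h + Q₀.ord f := Q₀.ord_mul hh0 hf0
  have hxreg : x ∈ infReg (K := K) h m := by
    rw [mem_infReg]
    intro Q hQ
    have h1 := geSub_anti Q (le_max_left _ _) (hx1 Q hQ)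
    have h2 : x = (x - (if Q = Q₀ then (h * f)⁻¹ else 0)) +
        (if Q = Q₀ then (h * f)⁻¹ else 0) := by ring
    rw [h2]
    refine Submodule.add_mem _ h1 ?_
    split_ifs with h3
    · subst h3
      rw [mem_geSub_of_ne (inv_ne_zero hhf0), Q.ord_inv, hord₀]
      nlinarith
    · exact Submodule.zero_mem _
  have hT := hf x hxreg
  rw [mem_infReg] at hT
  have hinv := adjoin_inv_eq' (K := K) h
  refine tame_contra htr hinv Q₀ (by rw [hti]; omega) (by rw [hti]; exact htame) (h * f * x) ?_ ?_ ?_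
  · have h1 := geSub_anti Q₀ (le_max_right _ _) (hx1 Q₀ hQ₀)
    rw [if_pos rfl] at h1
    have h2 : h * f * x - 1 = (h * f) * (x - (h * f)⁻¹) := by
      rw [mul_sub, mul_inv_cancel₀ hhf0]
    rw [h2]
    have h3 : h * f ∈ geSub Q₀ (Q₀.ord (h * f)) := by rw [mem_geSub_of_ne hhf0]
    exact zpow_mul_zpow_mem h3 h1 (by omega)
  · intro w hw hne
    rw [hti] at hw
    have h1 := geSub_anti w (le_max_right _ _) (hx1 w (by omega))
    rw [if_neg hne, sub_zero] at h1
    have h3 : h * f ∈ geSub w (w.ord (h * f)) := by rw [mem_geSub_of_ne hhf0]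
    exact zpow_mul_zpow_mem h3 h1 (by omega)
  · rw [mul_assoc, tr_smul h (mem_adjoin_simple_self K h)]
    have h1 : h ∈ geSub Q₀ (Q₀.ord h) := by rw [mem_geSub_of_ne hh0]
    exact zpow_mul_zpow_mem h1 (hT Q₀ hQ₀) (by nlinarith)

end Codiff

end Fermat.Agent.RH
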