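import Fermat.Agent.FunField.DegreeFormula

/-!
# Traces and places

`trace_pos`: if `M/E` is finite separable, `t ∈ E`, `v` a zero of `t`, and `F` vanishes at all
zeros of `t`, then `Tr_{M/E} F` vanishes at `v`.
-/

set_option autoImplicit false

noncomputable section

open AlgebraicCurve IsDedekindDomain WithZero Module

namespace Fermat.Agent.RH

open Fermat.Agent.FunField PlaceLemmas IntermediateField

variable {K M : Type*} [Field K] [Field M] [Algebra K M]

theorem not_mem_of_ord_neg (v : Place K M) {f : M} (h : v.ord f < 0) :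
    f ∉ v.toValuationSubring := by
  have hf : f ≠ 0 := by rintro rfl; simp at h
  rw [mem_iff_ord_nonneg v hf]; omega

theorem inv_not_mem_of_ord_pos (v : Place K M) {f : M} (h : 0 < v.ord f) :
    f⁻¹ ∉ v.toValuationSubring := by
  apply not_mem_of_ord_neg
  rw [v.ord_inv]; omega

theorem trace_pos [IsFF K M] (E : IntermediateField K M) [FiniteDimensional E M]
    [Algebra.IsSeparable E M] (t : M) (htE : t ∈ E) (v : Place K M) (hv : 0 < v.ord t) (F : M)
    (hF : ∀ w : Place K M, 0 < w.ord t → F = 0 ∨ 0 < w.ord F) :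
    ((Algebra.trace E M F : E) : M) = 0 ∨ 0 < v.ord ((Algebra.trace E M F : E) : M) := by
  classical
  set Ω := AlgebraicClosure M with hΩ
  set ι : M →+* Ω := algebraMap M Ω with hι
  have ht0 : t ≠ 0 := by rintro rfl; simp at hv
  -- a valuation ring of Ω dominating v
  obtain ⟨W, hW, hloc⟩ := IsLocalRing.exists_factor_valuationRing
    (R := v.toValuationSubring) (K := Ω) (ι.comp v.toValuationSubring.subtype)
  have hWmem : ∀ x ∈ v.toValuationSubring, ι x ∈ W := fun x hx => hW ⟨x, hx⟩
  have htW : W.valuation (ι t) < 1 := by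
    have htv : t ∈ v.toValuationSubring := (mem_iff_ord_nonneg v ht0).mpr hv.le
    by_contra hcon
    have h1 : IsUnit (⟨ι t, hWmem t htv⟩ : W) :=
      (W.valuation_eq_one_iff ⟨ι t, hWmem t htv⟩).mpr
        (le_antisymm ((W.valuation_le_one_iff _).mpr (hWmem t htv)) (not_lt.mp hcon))
    have h2 : IsUnit (⟨t, htv⟩ : v.toValuationSubring) := by
      have := hloc.map_nonunit (⟨t, htv⟩ : v.toValuationSubring) h1
      exact this
    have h3 : (⟨t, htv⟩ : v.toValuationSubring) ∈ IsLocalRing.maximalIdeal _ :=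
      (mem_maximalIdeal_iff v).mpr (Or.inr hv)
    exact h3 h2
  -- conjugates
  have hEι : ∀ x : E, algebraMap E Ω x = ι (x : M) := fun x =>
    IsScalarTower.algebraMap_apply E M Ω x
  have hconj : ∀ σ : M →ₐ[E] Ω, W.valuation (σ F) < 1 := by
    intro σ
    set B : ValuationSubring M := W.comap (σ : M →+* Ω) with hB
    have hKB : ∀ c : K, algebraMap K M c ∈ B := by
      intro c
      rw [hB, ValuationSubring.mem_comap]
      have : algebraMap K M c = algebraMap E M (algebraMap K E c) := rfl
      have h2 : (σ : M →+* Ω) (algebraMap K M c) = ι (algebraMap K M c) := by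
        rw [this]
        exact (σ.commutes _).trans (hEι _)
      rw [h2]
      exact hWmem _ (v.algebraMap_mem' c)
    have hσt : (σ : M →+* Ω) t = ι t := (σ.commutes ⟨t, htE⟩).trans (hEι _)
    have hBt : t⁻¹ ∉ B := by
      rw [hB, ValuationSubring.mem_comap, map_inv₀, hσt, ← W.valuation_le_one_iff, map_inv₀]
      intro h
      have h0 : W.valuation (ι t) ≠ 0 := by
        rw [Valuation.ne_zero_iff]; simpa using ht0
      have := (inv_le_one₀ (zero_lt_iff.mpr h0)).mp h
      exact absurd htW (not_lt.mpr this)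
    have hBtop : B ≠ ⊤ := by
      intro h; rw [h] at hBt; exact hBt (ValuationSubring.mem_top _)
    set w := placeOfValuationSubring B hKB hBtop with hw
    have hwt : 0 < w.ord t := by
      by_contra hcon
      push Not at hcon
      apply hBt
      show t⁻¹ ∈ w.toValuationSubring
      rw [mem_iff_ord_nonneg w (inv_ne_zero ht0), w.ord_inv]
      omega
    rcases hF w hwt with h0 | h0
    · rw [h0, map_zero, map_zero]; exact zero_lt_one
    · have h1 := inv_not_mem_of_ord_pos w h0
      have hF0 : F ≠ 0 := by rintro rfl; simp at h0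
      have h2 : (σ : M →+* Ω) F⁻¹ ∉ W := by
        intro h
        apply h1
        show F⁻¹ ∈ B
        rw [hB, ValuationSubring.mem_comap]; exact h
      rw [map_inv₀, ← W.valuation_le_one_iff, map_inv₀] at h2
      by_contra hcon
      apply h2
      have h3 : W.valuation ((σ : M →+* Ω) F) ≠ 0 := by
        rw [Valuation.ne_zero_iff, Ne, map_eq_zero]; exact hF0
      rw [inv_le_one₀ (zero_lt_iff.mpr h3)]
      exact not_lt.mp hcon
  have : IsAlgClosed Ω := AlgebraicClosure.isAlgClosed M
  have hsum : algebraMap E Ω (Algebra.trace E M F) = ∑ σ : M →ₐ[E] Ω, σ F :=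
    trace_eq_sum_embeddings Ω
  have hlt : W.valuation (ι ((Algebra.trace E M F : E) : M)) < 1 := by
    have : ι ((Algebra.trace E M F : E) : M) = algebraMap E Ω (Algebra.trace E M F) :=
      (hEι _).symm
    rw [this, hsum]
    exact Valuation.map_sum_lt _ one_ne_zero fun σ _ => hconj σ
  by_contra hcon
  rw [not_or, not_lt] at hcon
  obtain ⟨hne, hle⟩ := hcon
  have h1 : (((Algebra.trace E M F : E) : M))⁻¹ ∈ v.toValuationSubring := by
    rw [mem_iff_ord_nonneg v (inv_ne_zero hne), v.ord_inv]; omega
  have h2 := (W.valuation_le_one_iff _).mpr (hWmem _ h1)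
  rw [map_inv₀, map_inv₀] at h2
  have h3 : W.valuation (ι ((Algebra.trace E M F : E) : M)) ≠ 0 := by
    rw [Valuation.ne_zero_iff, Ne, map_eq_zero]; exact hne
  rw [inv_le_one₀ (zero_lt_iff.mpr h3)] at h2
  exact absurd hlt (not_lt.mpr h2)

/-- For `z ∈ K(t)` and `v` a zero of `t`, `ord_v z` is a multiple of `ord_v t`. -/
theorem ord_dvd (t : M) (v : Place K M) (hv : 0 < v.ord t) (z : M) (hz : z ∈ K⟮t⟯) :
    v.ord t ∣ v.ord z := by
  rcases eq_or_ne z 0 with rfl | hz0
  · simp
  have ht0 : t ≠ 0 := by rintro rfl; simp at hv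
  have htr : Transcendental K t := transcendental_of_place (v := v) hv.ne'
  have hnon : t ∈ v.toValuationSubring.nonunits := by
    rw [ValuationSubring.mem_nonunits_iff]
    by_contra hcon
    apply inv_not_mem_of_ord_pos v hv
    rw [← v.toValuationSubring.valuation_le_one_iff, map_inv₀,
      inv_le_one₀ (zero_lt_iff.mpr ((Valuation.ne_zero_iff _).mpr ht0))]
    exact not_lt.mp hcon
  obtain ⟨k, hk⟩ := valuation_adjoin v.toValuationSubring (fun c => v.algebraMap_mem' c) hnon htr
    ⟨z, hz⟩ (by intro h; exact hz0 (congrArg Subtype.val h))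
  refine ⟨k, ?_⟩
  have h1 : v.toValuationSubring.valuation (z / t ^ k) = 1 := by
    rw [map_div₀, map_zpow₀]
    rw [show v.toValuationSubring.valuation z = v.toValuationSubring.valuation t ^ k from hk]
    exact div_self (zpow_ne_zero _ ((Valuation.ne_zero_iff _).mpr ht0))
  have hne : z / t ^ k ≠ 0 := div_ne_zero hz0 (zpow_ne_zero _ ht0)
  have h2 : 0 ≤ v.ord (z / t ^ k) := by
    rw [← mem_iff_ord_nonneg v hne, ← v.toValuationSubring.valuation_le_one_iff, h1]
  have h3 : 0 ≤ v.ord (z / t ^ k)⁻¹ := by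
    rw [← mem_iff_ord_nonneg v (inv_ne_zero hne), ← v.toValuationSubring.valuation_le_one_iff,
      map_inv₀, h1, inv_one]
  rw [v.ord_inv] at h3
  rw [ord_div v hz0 (zpow_ne_zero _ ht0), v.ord_zpow] at h2 h3
  linarith [h2, h3, mul_comm (v.ord t) k]

end Fermat.Agent.RH
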